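import Fermat.Agent.Raising.Degen.Coords

/-!
# The part at a system and the diamonds

At a Taylor–Wiles level the elements of the Hecke algebra, among them the idempotent of a residual
system, commute with the diamonds: this is what gives them matrices over the diamond quotient.
-/

noncomputable section

namespace Fermat.Agent.Raising.Degen

open scoped MatrixGroups IsMulCommutative
open CongruenceSubgroup IsLocalRing Fermat.Agent.Grp Fermat.Agent.Ihara Fermat.Agent.LevelLowering

variable {O : Type} [CommRing O] [IsDomain O] [IsDiscreteValuationRing O]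
  [IsAdicComplete (maximalIdeal O) O] [Finite (ResidueField O)] [IsAddTorsionFree O]
  {p r : ℕ} [Fact p.Prime] {lv : Fin r → ℕ} {N : ℕ} [NeZero N] (Ψ : (ZMod N)ˣ →* DiaGroup p lv)
  (hΨ : Function.Surjective Ψ) (hneg : (-1 : SL(2, ℤ)) ∈ GammaPsi Ψ) (𝓟 : Set Nat.Primes)
  (a : Nat.Primes → ResidueField O)

local notation "Sd" => MvPowerSeries (Fin r) O ⧸ diamondIdeal (𝒪 := O) p lv

/-- The idempotent part of a Taylor–Wiles level. -/
abbrev partIdem : Module.End O (clHoms O (GammaPsi Ψ) O) :=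
  (levelIdem O Ψ hΨ hneg 𝓟 a).1.1

omit [IsDomain O] [IsDiscreteValuationRing O] [IsAdicComplete (maximalIdeal O) O]
    [Finite (ResidueField O)] in
/-- Elements of the Hecke algebra commute with the diamonds. -/
theorem levelAlg_diaOp (x : levelAlg O Ψ hΨ hneg 𝓟) (g : DiaGroup p lv)
    (w : clHoms O (GammaPsi Ψ) O) : x.1.1 (diaOp O Ψ hΨ g w) = diaOp O Ψ hΨ g (x.1.1 w) :=
  LinearMap.congr_fun ((levelAlg_compat O Ψ hΨ hneg 𝓟 x.2).2.2 g).eq w

omit [Finite (ResidueField O)] in
/-- The idempotent of the part commutes with the diamonds. -/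
theorem partIdem_diaOp (g : DiaGroup p lv) (w : clHoms O (GammaPsi Ψ) O) :
    partIdem Ψ hΨ hneg 𝓟 a (diaOp O Ψ hΨ g w) = diaOp O Ψ hΨ g (partIdem Ψ hΨ hneg 𝓟 a w) :=
  levelAlg_diaOp Ψ hΨ hneg 𝓟 _ g w

end Fermat.Agent.Raising.Degen
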