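import Fermat.Agent.LevelLowering.FreeFacts
import Fermat.Agent.LevelLowering.FreeTransfer

/-!
# Pull back and push forward between kernels of characters

`H ≤ G` and `H' ≤ G'` are the kernels of characters `d`, `d'` with values in the same group.  A
homomorphism `f : G' → G` with `d ∘ f = d'` pulls characters of `H` back to `H'`; a homomorphism
`α : K → G'` from a subgroup `K` of `G` with `d' ∘ α = d` pushes characters of `H'` forward to `H`.
-/

noncomputable section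

namespace Fermat.Agent.Raising.Degen

open scoped MatrixGroups
open Fermat.Agent.Grp Fermat.Agent.Ihara Fermat.Agent.LevelLowering

variable {G G' H H' K : Subgroup SL(2, ℤ)} {Δ : Type*} [CommGroup Δ] {d : G →* Δ} {d' : G' →* Δ}
  {A : Type*} [AddCommGroup A]

section Defs

variable (hker : ∀ g : G, (g : SL(2, ℤ)) ∈ H ↔ d g = 1) (hHG' : H' ≤ G')
  (hker' : ∀ g : G', (g : SL(2, ℤ)) ∈ H' ↔ d' g = 1)

/-- `f` between the kernels. -/
def pullHom (f : G' →* G) (hf : ∀ x, d (f x) = d' x) : H' →* H :=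
  MonoidHom.codRestrict ((G.subtype.comp f).comp (Subgroup.inclusion hHG')) H fun h =>
    (hker _).mpr ((hf _).trans ((hker' _).mp h.2))

/-- The value of `pullHom`. -/
theorem coe_pullHom (f : G' →* G) (hf : ∀ x, d (f x) = d' x) (h : H') :
    (pullHom hker hHG' hker' f hf h : SL(2, ℤ)) = f (Subgroup.inclusion hHG' h) := rfl

/-- Pull back of characters. -/
def pullChar (f : G' →* G) (hf : ∀ x, d (f x) = d' x) (φ : Additive H →+ A) : Additive H' →+ A :=
  φ.comp (MonoidHom.toAdditive (pullHom hker hHG' hker' f hf))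

/-- `α` between the kernels. -/
def pushHom (hKG : K ≤ G) (α : K →* G') (hα : ∀ k, d' (α k) = d (Subgroup.inclusion hKG k)) :
    (K ⊓ H : Subgroup SL(2, ℤ)) →* H' :=
  MonoidHom.codRestrict ((G'.subtype.comp α).comp (Subgroup.inclusion inf_le_left)) H' fun k =>
    (hker' _).mpr ((hα _).trans ((hker _).mp k.2.2))

/-- The value of `pushHom`. -/
theorem coe_pushHom (hKG : K ≤ G) (α : K →* G')
    (hα : ∀ k, d' (α k) = d (Subgroup.inclusion hKG k)) (k : (K ⊓ H : Subgroup SL(2, ℤ))) :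
    (pushHom hker hker' hKG α hα k : SL(2, ℤ)) = α ⟨k, k.2.1⟩ := rfl

variable [H.FiniteIndex] [K.FiniteIndex]

/-- Push forward of characters. -/
def pushChar (hKG : K ≤ G) (α : K →* G') (hα : ∀ k, d' (α k) = d (Subgroup.inclusion hKG k))
    (χ : Additive H' →+ A) : Additive H →+ A :=
  coresHom (inf_le_right : K ⊓ H ≤ H)
    (χ.comp (MonoidHom.toAdditive (pushHom hker hker' hKG α hα)))

end Defs

variable (hHG : H ≤ G) (hker : ∀ g : G, (g : SL(2, ℤ)) ∈ H ↔ d g = 1) (hHG' : H' ≤ G')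
  (hker' : ∀ g : G', (g : SL(2, ℤ)) ∈ H' ↔ d' g = 1)

/-! ### Linear maps on `Hom_cl` -/

section Cl

variable (R : Type*) [Semiring R] (A) [Module R A]

/-- Pull back on `Hom_cl`. -/
def pullCl (f : G' →* G) (hf : ∀ x, d (f x) = d' x)
    (htr : ∀ x : G', tr (f x : SL(2, ℤ)) = tr (x : SL(2, ℤ))) :
    clHoms R H A →ₗ[R] clHoms R H' A where
  toFun φ := ⟨pullChar hker hHG' hker' f hf φ.1, fun h hh => φ.2 _ (by
    rw [coe_pullHom, htr]
    exact hh)⟩
  map_add' _ _ := rfl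
  map_smul' _ _ := rfl

variable [H.FiniteIndex] [K.FiniteIndex]

/-- Push forward on `Hom_cl`. -/
def pushCl (hKG : K ≤ G) (α : K →* G') (hα : ∀ k, d' (α k) = d (Subgroup.inclusion hKG k))
    (htr : ∀ k : K, tr (α k : SL(2, ℤ)) = tr (k : SL(2, ℤ))) :
    clHoms R H' A →ₗ[R] clHoms R H A where
  toFun χ := ⟨pushChar hker hker' hKG α hα χ.1, isClHom_coresHom _ fun k hk => χ.2 _ (by
    rw [coe_pushHom, htr]
    exact hk)⟩
  map_add' χ χ' := Subtype.ext (coresHom_add _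
    ((χ : Additive H' →+ A).comp (MonoidHom.toAdditive (pushHom hker hker' hKG α hα)))
    ((χ' : Additive H' →+ A).comp (MonoidHom.toAdditive (pushHom hker hker' hKG α hα))))
  map_smul' c χ := Subtype.ext (coresHom_smul _ c
    ((χ : Additive H' →+ A).comp (MonoidHom.toAdditive (pushHom hker hker' hKG α hα))))

end Cl

/-! ### Conjugation -/

/-- Pulling back commutes with conjugation. -/
theorem pullChar_conjChar (f : G' →* G) (hf : ∀ x, d (f x) = d' x) (g' : G')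
    (φ : Additive H →+ A) :
    conjChar hHG' hker' g' (pullChar hker hHG' hker' f hf φ) =
      pullChar hker hHG' hker' f hf (conjChar hHG hker (f g') φ) := by
  refine Hecke.addChar_ext fun h => congrArg φ (congrArg Additive.ofMul (Subtype.ext ?_))
  show (f (Subgroup.inclusion hHG' (conjKer (hHG := hHG') hker' g' h)) : SL(2, ℤ)) = _
  rw [show Subgroup.inclusion hHG' (conjKer (hHG := hHG') hker' g' h) =
    g'⁻¹ * Subgroup.inclusion hHG' h * g' from Subtype.ext rfl, map_mul, map_mul, map_inv]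
  rfl

variable [H.FiniteIndex] [K.FiniteIndex]

/-- Pushing forward commutes with conjugation. -/
theorem pushChar_conjChar (hKG : K ≤ G) (α : K →* G')
    (hα : ∀ k, d' (α k) = d (Subgroup.inclusion hKG k)) (k : K) (χ : Additive H' →+ A) :
    conjChar hHG hker (Subgroup.inclusion hKG k) (pushChar hker hker' hKG α hα χ) =
      pushChar hker hker' hKG α hα (conjChar hHG' hker' (α k) χ) := by
  set g : G := Subgroup.inclusion hKG k with hg
  have hL : ∀ h : H, (h : SL(2, ℤ)) ∈ K ⊓ H ↔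
      (conjKer (hHG := hHG) hker g h : SL(2, ℤ)) ∈ K ⊓ H := fun h => by
    refine ⟨fun hh => Subgroup.mem_inf.mpr
        ⟨K.mul_mem (K.mul_mem (K.inv_mem k.2) (Subgroup.mem_inf.mp hh).1) k.2, SetLike.coe_mem _⟩,
      fun hh => Subgroup.mem_inf.mpr ⟨?_, h.2⟩⟩
    have := K.mul_mem (K.mul_mem k.2 (Subgroup.mem_inf.mp hh).1) (K.inv_mem k.2)
    simpa [conjKer, hg, mul_assoc] using this
  rw [pushChar, pushChar, conjChar,
    coresHom_comp_pre (inf_le_right : K ⊓ H ≤ H) (inf_le_right : K ⊓ H ≤ H)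
      (conjKer (hHG := hHG) hker g) hL (fun h => ?_)]
  · congr 1
    refine Hecke.addChar_ext fun x => congrArg χ (congrArg Additive.ofMul (Subtype.ext ?_))
    show ((α _ : G') : SL(2, ℤ)) =
      (((α k)⁻¹ * α ⟨x, x.2.1⟩ * α k : G') : SL(2, ℤ))
    rw [← map_inv, ← map_mul, ← map_mul]
    exact congrArg (fun y => ((α y : G') : SL(2, ℤ))) (Subtype.ext rfl)
  · refine ⟨conjKer (hHG := hHG) hker g⁻¹ h, ?_⟩
    rw [show conjKer (hHG := hHG) hker g (conjKer (hHG := hHG) hker g⁻¹ h) = h from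
      Subtype.ext (by simp [conjKer, mul_assoc]), inv_mul_cancel]
    exact one_mem _

/-! ### Compositions and descent -/

omit [H.FiniteIndex] [K.FiniteIndex] in
include hHG hker in
/-- Subgroups with full image keep their index. -/
theorem index_inf_eq (hKG : K ≤ G) (hK : ∀ δ, ∃ k : K, d (Subgroup.inclusion hKG k) = δ) :
    ((K ⊓ H).subgroupOf H).index = (K.subgroupOf G).index := by
  refine Nat.card_congr (Equiv.ofBijective (Quotient.lift
    (fun h : H => ((Subgroup.inclusion hHG h : G) : G ⧸ K.subgroupOf G)) fun a b hab => ?_)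
    ⟨?_, ?_⟩)
  · rw [QuotientGroup.eq, Subgroup.mem_subgroupOf]
    exact ((QuotientGroup.leftRel_apply.mp hab : _ ∈ (K ⊓ H).subgroupOf H)).1
  · intro x y
    refine Quotient.inductionOn₂ x y fun a b hab => Quotient.sound ?_
    rw [Quotient.lift_mk, Quotient.lift_mk, QuotientGroup.eq, Subgroup.mem_subgroupOf] at hab
    exact QuotientGroup.leftRel_apply.mpr ⟨hab, (a⁻¹ * b).2⟩
  · intro y
    obtain ⟨k, hk⟩ := hK (d y.out)⁻¹
    refine ⟨((⟨((y.out * Subgroup.inclusion hKG k : G) : SL(2, ℤ)), (hker _).mpr (by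
      rw [map_mul, hk, mul_inv_cancel])⟩ : H) : H ⧸ (K ⊓ H).subgroupOf H), ?_⟩
    conv_rhs => rw [← QuotientGroup.out_eq' y]
    show ((_ : G) : G ⧸ K.subgroupOf G) = _
    rw [eq_comm, QuotientGroup.eq, Subgroup.mem_subgroupOf]
    simp

include hHG hHG' in
/-- If `f ∘ α` is the inclusion, push after pull is the index. -/
theorem pushChar_pullChar (hKG : K ≤ G) (α : K →* G')
    (hα : ∀ k, d' (α k) = d (Subgroup.inclusion hKG k))
    (hK : ∀ δ, ∃ k : K, d (Subgroup.inclusion hKG k) = δ) (f : G' →* G)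
    (hf : ∀ x, d (f x) = d' x) (hfα : ∀ k, f (α k) = Subgroup.inclusion hKG k)
    (φ : Additive H →+ A) :
    pushChar hker hker' hKG α hα (pullChar hker hHG' hker' f hf φ) =
      (K.subgroupOf G).index • φ := by
  rw [pushChar, show (pullChar hker hHG' hker' f hf φ).comp
      (MonoidHom.toAdditive (pushHom hker hker' hKG α hα)) = resHom inf_le_right φ from
    Hecke.addChar_ext fun k => congrArg φ (congrArg Additive.ofMul (Subtype.ext
      (congrArg (fun y : G => (y : SL(2, ℤ))) (hfα ⟨k, k.2.1⟩)))),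
    coresHom_res, index_inf_eq hHG hker hKG hK]

/-- Pull back commutes with corestriction. -/
theorem pullChar_cores [H'.FiniteIndex] (hd' : Function.Surjective d') (f : G' →* G)
    (hf : ∀ x, d (f x) = d' x) (φ : Additive H →+ A) :
    (coresHom hHG φ).comp (MonoidHom.toAdditive f) =
      coresHom hHG' (pullChar hker hHG' hker' f hf φ) := by
  rw [coresHom_comp_pre hHG hHG' f (fun k => by rw [hker, hker', hf]) fun g => ?_]
  · rfl
  · obtain ⟨k, hk⟩ := hd' (d g)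
    exact ⟨k, (hker _).mpr (by rw [map_mul, map_inv, hf, hk, inv_mul_cancel])⟩

/-- Push forward commutes with corestriction. -/
theorem pushChar_cores [H'.FiniteIndex] (hKG : K ≤ G) (α : K →* G')
    (hα : ∀ k, d' (α k) = d (Subgroup.inclusion hKG k))
    (hK : ∀ δ, ∃ k : K, d (Subgroup.inclusion hKG k) = δ) (χ : Additive H' →+ A) :
    coresHom hHG (pushChar hker hker' hKG α hα χ) =
      coresHom hKG ((coresHom hHG' χ).comp (MonoidHom.toAdditive α)) := by
  rw [coresHom_comp_pre hHG' (inf_le_left : K ⊓ H ≤ K) α (fun k => ?_) fun g => ?_, pushChar,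
    coresHom_trans, coresHom_trans]
  · rfl
  · rw [hker', hα, ← hker]
    exact ⟨fun h => h.2, fun h => ⟨k.2, h⟩⟩
  · obtain ⟨k, hk⟩ := hK (d' g)
    exact ⟨k, (hker' _).mpr (by rw [map_mul, map_inv, hα, hk, inv_mul_cancel])⟩

/-! ### Commutation with the operators -/

variable {C : Corr G} {C' : Corr G'} (hC : C.Compat d) (hC' : C'.Compat d') [H'.FiniteIndex]
  (hneg : (-1 : SL(2, ℤ)) ∈ H) (hneg' : (-1 : SL(2, ℤ)) ∈ H')

include hHG hHG' in
/-- Pull back commutes with compatible operators. -/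
theorem pullChar_op (f : G' →* G) (hf : ∀ x, d (f x) = d' x)
    (hL : ∀ k : G', (k : SL(2, ℤ)) ∈ C'.K₁ ↔ (f k : SL(2, ℤ)) ∈ C.K₁)
    (hconj : ∀ k : C'.K₁,
      C.conj ⟨_, (hL (Subgroup.inclusion C'.le₁ k)).mp k.2⟩ = f (C'.conj k))
    (hsurj : ∀ g : G, ∃ k : G', (((f k)⁻¹ * g : G) : SL(2, ℤ)) ∈ C.K₁) (φ : Additive H →+ A) :
    (C'.restrict hker' hC' hneg').op (pullChar hker hHG' hker' f hf φ) =
      pullChar hker hHG' hker' f hf ((C.restrict hker hC hneg).op φ) := by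
  have := C.fin₁
  have := C'.fin₁
  symm
  show (coresHom (inf_le_right : C.K₁ ⊓ H ≤ H)
      (φ.comp (MonoidHom.toAdditive (C.restrict hker hC hneg).conj))).comp
        (MonoidHom.toAdditive (pullHom hker hHG' hker' f hf)) =
    coresHom (inf_le_right : C'.K₁ ⊓ H' ≤ H')
      ((pullChar hker hHG' hker' f hf φ).comp
        (MonoidHom.toAdditive (C'.restrict hker' hC' hneg').conj))
  rw [coresHom_comp_pre _ (inf_le_right : C'.K₁ ⊓ H' ≤ H') _ (fun k => ?_) fun h => ?_]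
  · congr 1
    refine Hecke.addChar_ext fun u => congrArg φ (congrArg Additive.ofMul (Subtype.ext ?_))
    exact congrArg (fun y : G => (y : SL(2, ℤ))) (hconj ⟨u, u.2.1⟩)
  · exact ⟨fun hk => ⟨(hL (Subgroup.inclusion hHG' k)).mp hk.1, SetLike.coe_mem _⟩,
      fun hk => ⟨(hL (Subgroup.inclusion hHG' k)).mpr hk.1, k.2⟩⟩
  · obtain ⟨k, hk⟩ := hsurj (Subgroup.inclusion hHG h)
    obtain ⟨m, hm⟩ := hC'.d_surj (d' k)⁻¹
    set m' : G' := Subgroup.inclusion C'.le₁ m with hm'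
    refine ⟨⟨((k * m' : G') : SL(2, ℤ)), (hker' _).mpr (by rw [map_mul, hm, mul_inv_cancel])⟩,
      ?_, SetLike.coe_mem _⟩
    show (((f (k * m'))⁻¹ * Subgroup.inclusion hHG h : G) : SL(2, ℤ)) ∈ C.K₁
    rw [map_mul, mul_inv_rev, mul_assoc, Subgroup.coe_mul]
    exact mul_mem (inv_mem ((hL m').mp m.2)) hk

include hHG hHG' in
/-- Push forward commutes with compatible operators.  `M` is the common refinement. -/
theorem pushChar_op (hKG : K ≤ G) (α : K →* G')
    (hα : ∀ k, d' (α k) = d (Subgroup.inclusion hKG k)) {M : Subgroup SL(2, ℤ)} [M.FiniteIndex]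
    (hMK : M ≤ K) (hMC : M ≤ C.K₁)
    (hM1 : ∀ k : K, (k : SL(2, ℤ)) ∈ M ↔ (α k : SL(2, ℤ)) ∈ C'.K₁)
    (hM2 : ∀ u : C.K₁, (u : SL(2, ℤ)) ∈ M ↔ (C.conj u : SL(2, ℤ)) ∈ K)
    (hconj : ∀ m : M, C'.conj ⟨_, (hM1 (Subgroup.inclusion hMK m)).mp m.2⟩ =
      α ⟨_, (hM2 (Subgroup.inclusion hMC m)).mp m.2⟩)
    (hMd : ∀ δ, ∃ m : M, d (Subgroup.inclusion (hMK.trans hKG) m) = δ)
    (hs1 : ∀ g : G', ∃ k : K, (((α k)⁻¹ * g : G') : SL(2, ℤ)) ∈ C'.K₁)
    (hs2 : ∀ g : G, ∃ u : C.K₁, (((C.conj u)⁻¹ * g : G) : SL(2, ℤ)) ∈ K) (χ : Additive H' →+ A) :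
    pushChar hker hker' hKG α hα ((C'.restrict hker' hC' hneg').op χ) =
      (C.restrict hker hC hneg).op (pushChar hker hker' hKG α hα χ) := by
  have := C.fin₁
  have := C'.fin₁
  have hMKH : M ⊓ H ≤ K ⊓ H := inf_le_inf hMK le_rfl
  have hMCH : M ⊓ H ≤ C.K₁ ⊓ H := inf_le_inf hMC le_rfl
  show coresHom (inf_le_right : K ⊓ H ≤ H)
      ((coresHom (inf_le_right : C'.K₁ ⊓ H' ≤ H')
        (χ.comp (MonoidHom.toAdditive (C'.restrict hker' hC' hneg').conj))).comp
          (MonoidHom.toAdditive (pushHom hker hker' hKG α hα))) =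
    coresHom (inf_le_right : C.K₁ ⊓ H ≤ H)
      ((coresHom (inf_le_right : K ⊓ H ≤ H)
        (χ.comp (MonoidHom.toAdditive (pushHom hker hker' hKG α hα)))).comp
          (MonoidHom.toAdditive (C.restrict hker hC hneg).conj))
  rw [coresHom_comp_pre _ hMKH _ (fun k => ?_) fun g => ?_,
    coresHom_comp_pre _ hMCH _ (fun u => ?_) fun g => ?_, coresHom_trans, coresHom_trans]
  · congr 1
    refine Hecke.addChar_ext fun m => congrArg χ (congrArg Additive.ofMul (Subtype.ext ?_))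
    exact congrArg (fun y : G' => (y : SL(2, ℤ))) (hconj ⟨m, m.2.1⟩)
  · exact ⟨fun hu => ⟨(hM2 ⟨u, u.2.1⟩).mp hu.1, SetLike.coe_mem _⟩,
      fun hu => ⟨(hM2 ⟨u, u.2.1⟩).mpr hu.1, u.2.2⟩⟩
  · obtain ⟨u, hu⟩ := hs2 ⟨g, hHG g.2⟩
    obtain ⟨m, hm⟩ := hMd (d (Subgroup.inclusion C.le₁ u))⁻¹
    let z : C.K₁ := u * Subgroup.inclusion hMC m
    have hz : ((z : C.K₁) : SL(2, ℤ)) ∈ C.K₁ ⊓ H :=
      ⟨z.2, (hker (Subgroup.inclusion C.le₁ z)).mpr (by
        rw [map_mul, map_mul, show Subgroup.inclusion C.le₁ (Subgroup.inclusion hMC m) =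
          Subgroup.inclusion (hMK.trans hKG) m from rfl, hm, mul_inv_cancel])⟩
    refine ⟨⟨_, hz⟩, ?_, SetLike.coe_mem _⟩
    show (((C.conj z)⁻¹ * ⟨g, hHG g.2⟩ : G) : SL(2, ℤ)) ∈ K
    rw [map_mul, mul_inv_rev, mul_assoc, Subgroup.coe_mul]
    exact mul_mem (inv_mem ((hM2 (Subgroup.inclusion hMC m)).mp m.2)) hu
  · exact ⟨fun hk => ⟨(hM1 ⟨k, k.2.1⟩).mp hk.1, SetLike.coe_mem _⟩,
      fun hk => ⟨(hM1 ⟨k, k.2.1⟩).mpr hk.1, k.2.2⟩⟩
  · obtain ⟨k, hk⟩ := hs1 ⟨g, hHG' g.2⟩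
    obtain ⟨m, hm⟩ := hMd (d (Subgroup.inclusion hKG k))⁻¹
    let z : K := k * Subgroup.inclusion hMK m
    have hz : ((z : K) : SL(2, ℤ)) ∈ K ⊓ H :=
      ⟨z.2, (hker (Subgroup.inclusion hKG z)).mpr (by
        rw [map_mul, map_mul, show Subgroup.inclusion hKG (Subgroup.inclusion hMK m) =
          Subgroup.inclusion (hMK.trans hKG) m from rfl, hm, mul_inv_cancel])⟩
    refine ⟨⟨_, hz⟩, ?_, SetLike.coe_mem _⟩
    show (((α z)⁻¹ * ⟨g, hHG' g.2⟩ : G') : SL(2, ℤ)) ∈ C'.K₁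
    rw [map_mul, mul_inv_rev, mul_assoc, Subgroup.coe_mul]
    exact mul_mem (inv_mem ((hM1 (Subgroup.inclusion hMK m)).mp m.2)) hk

end Fermat.Agent.Raising.Degen
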