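import Fermat.Agent.Ihara.RaiseBase
import Fermat.Agent.LevelLowering.FreeDegen
import Fermat.Agent.LevelLowering.FreeLevel
import Fermat.Agent.Raising.Degen.Kernel

/-!
# Degeneracy maps between the kernels at levels `N` and `N q`

`Ψ` is a character of `(ℤ/N)ˣ` and `liftPsi Ψ q` the same character modulo `N q`.  The four maps
commute with the operators away from `q`, with the diamonds and with corestriction to `Γ₀`, and
their compositions are `q + 1`, `T_q` and `⟨q⟩ T_q`.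
-/

noncomputable section

namespace Fermat.Agent.Raising.Degen

open scoped MatrixGroups
open CongruenceSubgroup Fermat.Agent.Grp Fermat.Agent.Ihara Fermat.Agent.LevelLowering
  Fermat.Agent.Hecke

variable {N : ℕ} {Δ : Type} [CommGroup Δ] (Ψ : (ZMod N)ˣ →* Δ) (q : ℕ)

/-- The character read modulo `N q`. -/
def liftPsi : (ZMod (N * q))ˣ →* Δ := Ψ.comp (ZMod.unitsMap (dvd_mul_right N q))

/-- The value of the lifted character. -/
theorem liftPsi_apply (u : (ZMod (N * q))ˣ) :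
    liftPsi Ψ q u = Ψ (ZMod.unitsMap (dvd_mul_right N q) u) := rfl

/-- The lifted character is surjective. -/
theorem liftPsi_surjective [NeZero N] [NeZero q] (hΨ : Function.Surjective Ψ) :
    Function.Surjective (liftPsi Ψ q) :=
  hΨ.comp (ZMod.unitsMap_surjective _)

/-- The lifted character restricts the character. -/
theorem dChar_lift (γ : Gamma0 (N * q)) :
    dChar (liftPsi Ψ q) γ = dChar Ψ (Subgroup.inclusion (Gamma0_le_mul N q) γ) :=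
  congrArg Ψ (Units.ext (map_intCast (ZMod.castHom (dvd_mul_right N q) (ZMod N)) (γ.1.1 1 1)))

/-- The character is invariant under `β`. -/
theorem dChar_betaHom [NeZero q] (γ : Gamma0 (N * q)) :
    dChar Ψ (betaHom N q γ) = dChar (liftPsi Ψ q) γ := by
  rw [dChar_lift]
  exact dChar_congr Ψ (by rw [betaHom_val]; rfl)

/-- The character is invariant under `α`. -/
theorem dChar_alphaUp [NeZero q] (u : upperGrp N q) :
    dChar (liftPsi Ψ q) (alphaUp N q u) = dChar Ψ (Subgroup.inclusion (upperGrp_le N q) u) := by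
  rw [dChar_lift]
  exact dChar_congr Ψ (by
    show (((alphaUp N q u).1.1 1 1 : ℤ) : ZMod N) = _
    rw [alphaUp_val]; rfl)

/-- `-1` lies in the kernel of the lifted character. -/
theorem neg_one_mem_lift (hneg : (-1 : SL(2, ℤ)) ∈ GammaPsi Ψ) :
    (-1 : SL(2, ℤ)) ∈ GammaPsi (liftPsi Ψ q) :=
  (mem_GammaPsi (liftPsi Ψ q) ⟨-1, neg_one_mem_Gamma0 _⟩).mpr
    ((dChar_lift Ψ q _).trans ((mem_GammaPsi Ψ ⟨-1, neg_one_mem_Gamma0 N⟩).mp hneg))

/-- The lifted character kills what the character kills. -/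
theorem lift_kills_small_trace (h : ∀ g : Gamma0 N, |tr (g : SL(2, ℤ))| ≤ 2 → dChar Ψ g = 1)
    (g : Gamma0 (N * q)) (hg : |tr (g : SL(2, ℤ))| ≤ 2) : dChar (liftPsi Ψ q) g = 1 :=
  (dChar_lift Ψ q g).trans (h _ hg)

variable (R : Type) [CommRing R] [NeZero N] [NeZero q] [Fintype Δ]

/-- First degeneracy map. -/
def psiDegA : clHoms R (GammaPsi Ψ) R →ₗ[R] clHoms R (GammaPsi (liftPsi Ψ q)) R :=
  pullCl R (mem_GammaPsi Ψ) (GammaPsi_le _) (mem_GammaPsi (liftPsi Ψ q)) R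
    (Subgroup.inclusion (Gamma0_le_mul N q)) (fun γ => (dChar_lift Ψ q γ).symm) fun _ => rfl

/-- Second degeneracy map. -/
def psiDegB : clHoms R (GammaPsi Ψ) R →ₗ[R] clHoms R (GammaPsi (liftPsi Ψ q)) R :=
  pullCl R (mem_GammaPsi Ψ) (GammaPsi_le _) (mem_GammaPsi (liftPsi Ψ q)) R
    (betaHom N q) (dChar_betaHom Ψ q) tr_betaHom

/-- First transfer. -/
def psiCorA : clHoms R (GammaPsi (liftPsi Ψ q)) R →ₗ[R] clHoms R (GammaPsi Ψ) R :=
  pushCl R (mem_GammaPsi Ψ) (mem_GammaPsi (liftPsi Ψ q)) R (Gamma0_le_mul N q)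
    (MonoidHom.id _) (dChar_lift Ψ q) fun _ => rfl

/-- Second transfer. -/
def psiCorB : clHoms R (GammaPsi (liftPsi Ψ q)) R →ₗ[R] clHoms R (GammaPsi Ψ) R :=
  pushCl R (mem_GammaPsi Ψ) (mem_GammaPsi (liftPsi Ψ q)) R (upperGrp_le N q)
    (alphaUp N q) (dChar_alphaUp Ψ q) tr_alphaUp

variable {Ψ q} (hΨ : Function.Surjective Ψ) (hneg : (-1 : SL(2, ℤ)) ∈ GammaPsi Ψ)
  (hΨ' : Function.Surjective (liftPsi Ψ q))
  (hneg' : (-1 : SL(2, ℤ)) ∈ GammaPsi (liftPsi Ψ q))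

omit [Fintype Δ] in
include hΨ in
/-- Elements with upper right entry divisible by `m` realise every value. -/
theorem exists_mem_upperGrp (m : ℕ) [NeZero m] (δ : Δ) :
    ∃ k : upperGrp N m, dChar Ψ (Subgroup.inclusion (upperGrp_le N m) k) = δ := by
  obtain ⟨u, rfl⟩ := hΨ δ
  obtain ⟨γ, hγ, hu⟩ := exists_upper_entry (ℓ := m) u
  exact ⟨⟨γ.1, γ, hγ, rfl⟩, dChar_apply Ψ u hu⟩

omit [Fintype Δ] in
include hΨ in
/-- `Γ₀(N q)` realises every value of the character. -/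
theorem exists_mem_Gamma0_mul (δ : Δ) :
    ∃ k : Gamma0 (N * q), dChar Ψ (Subgroup.inclusion (Gamma0_le_mul N q) k) = δ := by
  obtain ⟨γ, hγ⟩ := dChar_surjective (liftPsi Ψ q) (liftPsi_surjective Ψ q hΨ) δ
  exact ⟨γ, (dChar_lift Ψ q γ).symm.trans hγ⟩

/-! ### Diamonds -/

omit [Fintype Δ] in
/-- `degA` commutes with the diamonds. -/
theorem psiDegA_diaOp (δ : Δ) (φ : clHoms R (GammaPsi Ψ) R) :
    psiDegA Ψ q R (diaOp R Ψ hΨ δ φ) = diaOp R (liftPsi Ψ q) hΨ' δ (psiDegA Ψ q R φ) := by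
  refine Subtype.ext ?_
  show pullChar _ _ _ _ _ (conjChar _ _ _ _) = conjChar _ _ _ (pullChar _ _ _ _ _ φ.1)
  rw [pullChar_conjChar (GammaPsi_le Ψ)]
  refine congrArg _ (conjChar_congr _ _ ?_ _)
  rw [d_sec, ← dChar_lift, d_sec]

omit [Fintype Δ] in
/-- `degB` commutes with the diamonds. -/
theorem psiDegB_diaOp (δ : Δ) (φ : clHoms R (GammaPsi Ψ) R) :
    psiDegB Ψ q R (diaOp R Ψ hΨ δ φ) = diaOp R (liftPsi Ψ q) hΨ' δ (psiDegB Ψ q R φ) := by
  refine Subtype.ext ?_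
  show pullChar _ _ _ _ _ (conjChar _ _ _ _) = conjChar _ _ _ (pullChar _ _ _ _ _ φ.1)
  rw [pullChar_conjChar (GammaPsi_le Ψ)]
  refine congrArg _ (conjChar_congr _ _ ?_ _)
  rw [d_sec, dChar_betaHom, d_sec]

/-- `corA` commutes with the diamonds. -/
theorem psiCorA_diaOp (δ : Δ) (χ : clHoms R (GammaPsi (liftPsi Ψ q)) R) :
    psiCorA Ψ q R (diaOp R (liftPsi Ψ q) hΨ' δ χ) = diaOp R Ψ hΨ δ (psiCorA Ψ q R χ) := by
  obtain ⟨k, hk⟩ := exists_mem_Gamma0_mul (q := q) hΨ δ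
  refine Subtype.ext ?_
  show pushChar _ _ _ _ _ (conjChar _ _ _ _) = conjChar _ _ _ (pushChar _ _ _ _ _ χ.1)
  rw [conjChar_congr (GammaPsi_le Ψ) (mem_GammaPsi Ψ)
      (show dChar Ψ _ = dChar Ψ (Subgroup.inclusion (Gamma0_le_mul N q) k) by rw [d_sec, hk]),
    pushChar_conjChar (GammaPsi_le Ψ) _ (GammaPsi_le (liftPsi Ψ q))]
  refine congrArg _ (conjChar_congr _ _ ?_ _)
  rw [d_sec, MonoidHom.id_apply, dChar_lift, hk]

/-- `corB` commutes with the diamonds. -/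
theorem psiCorB_diaOp (δ : Δ) (χ : clHoms R (GammaPsi (liftPsi Ψ q)) R) :
    psiCorB Ψ q R (diaOp R (liftPsi Ψ q) hΨ' δ χ) = diaOp R Ψ hΨ δ (psiCorB Ψ q R χ) := by
  obtain ⟨k, hk⟩ := exists_mem_upperGrp hΨ q δ
  refine Subtype.ext ?_
  show pushChar _ _ _ _ _ (conjChar _ _ _ _) = conjChar _ _ _ (pushChar _ _ _ _ _ χ.1)
  rw [conjChar_congr (GammaPsi_le Ψ) (mem_GammaPsi Ψ)
      (show dChar Ψ _ = dChar Ψ (Subgroup.inclusion (upperGrp_le N q) k) by rw [d_sec, hk]),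
    pushChar_conjChar (GammaPsi_le Ψ) _ (GammaPsi_le (liftPsi Ψ q))]
  refine congrArg _ (conjChar_congr _ _ ?_ _)
  rw [d_sec, dChar_alphaUp, hk]

/-! ### Descent to `Γ₀` -/

include hΨ' in
/-- `degA` commutes with corestriction to `Γ₀`. -/
theorem cores_psiDegA (φ : clHoms R (GammaPsi Ψ) R) :
    coresCl (GammaPsi_le (liftPsi Ψ q)) R R (psiDegA Ψ q R φ) =
      clDegA R N q (coresCl (GammaPsi_le Ψ) R R φ) :=
  Subtype.ext (pullChar_cores (GammaPsi_le Ψ) (mem_GammaPsi Ψ) (GammaPsi_le _)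
    (mem_GammaPsi (liftPsi Ψ q)) (dChar_surjective _ hΨ') _ (fun γ => (dChar_lift Ψ q γ).symm)
    φ.1).symm

include hΨ' in
/-- `degB` commutes with corestriction to `Γ₀`. -/
theorem cores_psiDegB (φ : clHoms R (GammaPsi Ψ) R) :
    coresCl (GammaPsi_le (liftPsi Ψ q)) R R (psiDegB Ψ q R φ) =
      clDegB R N q (coresCl (GammaPsi_le Ψ) R R φ) :=
  Subtype.ext (pullChar_cores (GammaPsi_le Ψ) (mem_GammaPsi Ψ) (GammaPsi_le _)
    (mem_GammaPsi (liftPsi Ψ q)) (dChar_surjective _ hΨ') _ (dChar_betaHom Ψ q) φ.1).symm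

include hΨ in
/-- `corA` commutes with corestriction to `Γ₀`. -/
theorem cores_psiCorA (χ : clHoms R (GammaPsi (liftPsi Ψ q)) R) :
    coresCl (GammaPsi_le Ψ) R R (psiCorA Ψ q R χ) =
      clCorA R N q (coresCl (GammaPsi_le (liftPsi Ψ q)) R R χ) :=
  Subtype.ext (pushChar_cores (GammaPsi_le Ψ) (mem_GammaPsi Ψ) (GammaPsi_le _)
    (mem_GammaPsi (liftPsi Ψ q)) _ _ (dChar_lift Ψ q) (exists_mem_Gamma0_mul hΨ) χ.1)

include hΨ in
/-- `corB` commutes with corestriction to `Γ₀`. -/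
theorem cores_psiCorB (χ : clHoms R (GammaPsi (liftPsi Ψ q)) R) :
    coresCl (GammaPsi_le Ψ) R R (psiCorB Ψ q R χ) =
      clCorB R N q (coresCl (GammaPsi_le (liftPsi Ψ q)) R R χ) :=
  Subtype.ext (pushChar_cores (GammaPsi_le Ψ) (mem_GammaPsi Ψ) (GammaPsi_le _)
    (mem_GammaPsi (liftPsi Ψ q)) _ _ (dChar_alphaUp Ψ q) (exists_mem_upperGrp hΨ q) χ.1)

/-! ### The compositions -/

variable (hq : q.Prime) (hqN : ¬ q ∣ N)

include hΨ hq hqN in
/-- `corA ∘ degA = q + 1`. -/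
theorem psiCorA_degA (φ : clHoms R (GammaPsi Ψ) R) :
    psiCorA Ψ q R (psiDegA Ψ q R φ) = (q + 1) • φ := by
  refine Subtype.ext ((pushChar_pullChar (GammaPsi_le Ψ) (mem_GammaPsi Ψ) (GammaPsi_le _)
    (mem_GammaPsi (liftPsi Ψ q)) _ _ (dChar_lift Ψ q) (exists_mem_Gamma0_mul hΨ) _
    (fun γ => (dChar_lift Ψ q γ).symm) (fun _ => rfl) φ.1).trans ?_)
  rw [show ((Gamma0 (N * q)).subgroupOf (Gamma0 N)).index = q + 1 from index_lowerSub hq hqN]
  rfl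

include hΨ hq hqN in
/-- `corB ∘ degB = q + 1`. -/
theorem psiCorB_degB (φ : clHoms R (GammaPsi Ψ) R) :
    psiCorB Ψ q R (psiDegB Ψ q R φ) = (q + 1) • φ := by
  refine Subtype.ext ((pushChar_pullChar (GammaPsi_le Ψ) (mem_GammaPsi Ψ) (GammaPsi_le _)
    (mem_GammaPsi (liftPsi Ψ q)) _ _ (dChar_alphaUp Ψ q) (exists_mem_upperGrp hΨ q) _
    (dChar_betaHom Ψ q) (fun u => ?_) φ.1).trans ?_)
  · refine Subtype.ext (imat_inj (X := !![(q : ℤ), 0; 0, 1]) (by simpa using hq.ne_zero) ?_)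
    rw [← betaHom_spec]
    show _ * (alphaUp N q u).1.1 = u.1.1 * _
    obtain ⟨-, c, hc⟩ := mem_upperGrp.mp u.2
    rw [alphaUp_val, hc, Int.mul_ediv_cancel_left _ (by exact_mod_cast hq.ne_zero : (q : ℤ) ≠ 0),
      Matrix.eta_fin_two u.1.1, hc]
    simp [mul_comm]
  · rw [upperGrp_subgroupOf, index_upperSub hq hqN]
    rfl

/-- `corB ∘ degA = T_q`. -/
theorem psiCorB_degA (φ : clHoms R (GammaPsi Ψ) R) :
    psiCorB Ψ q R (psiDegA Ψ q R φ) = kerOp R Ψ hΨ hneg q φ :=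
  Subtype.ext rfl

omit [NeZero q] in
include hq hqN in
/-- Conjugation by `ε` carries the upper subgroup onto `Γ₀(N q)`. -/
theorem mem_upper_iff_conj_mem (u : Gamma0 N) :
    (u : SL(2, ℤ)) ∈ upperGrp N q ↔
      ((upperEps hq hqN * u * (upperEps hq hqN)⁻¹ : Gamma0 N) : SL(2, ℤ)) ∈ Gamma0 (N * q) := by
  obtain ⟨c, hc⟩ := Gamma0_dvd u
  set v : Gamma0 N := upperEps hq hqN * u * (upperEps hq hqN)⁻¹ with hv
  have e : v.1 1 0 = (N : ℤ) * ((q : ℤ) * (u.1 0 0 + (q : ℤ) * c - u.1 1 1) - N * u.1 0 1) := by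
    rw [hv]
    simp only [Subgroup.coe_mul, Subgroup.coe_inv, (entries_mul _ _).2.2.1,
      (entries_mul _ _).2.2.2, (entries_inv _).1, (entries_inv _).2.2.1, upperEps, mkGamma0_val]
    rw [show u.1 1 0 = _ from hc]
    simp
    ring
  have hqN' : ¬ (q : ℤ) ∣ (N : ℤ) := fun h => hqN (Int.natCast_dvd_natCast.mp h)
  have hv' : (v : SL(2, ℤ)) ∈ Gamma0 (N * q) ↔
      (q : ℤ) ∣ (q : ℤ) * (u.1 0 0 + (q : ℤ) * c - u.1 1 1) - N * u.1 0 1 := by
    rw [Hecke.Gamma0_mem_iff_dvd]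
    show ((N * q : ℕ) : ℤ) ∣ v.1 1 0 ↔ _
    rw [e, Nat.cast_mul, mul_dvd_mul_iff_left (by exact_mod_cast NeZero.ne N : (N : ℤ) ≠ 0)]
  rw [hv', mem_upperGrp, dvd_sub_right (dvd_mul_right _ _),
    (Nat.prime_iff_prime_int.mp hq).dvd_mul, or_iff_right hqN']
  exact ⟨fun ⟨_, h⟩ => h, fun h => ⟨u.2, h⟩⟩

include hq hqN in
/-- `β (ε u ε⁻¹) = z · diag(1,q)(u) · z⁻¹`. -/
theorem betaHom_conj (u : Gamma0 N) (hu : (u : SL(2, ℤ)) ∈ upperGrp N q)
    (w : Gamma0 (N * q))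
    (hw : (w : SL(2, ℤ)) = (upperEps hq hqN * u * (upperEps hq hqN)⁻¹ : Gamma0 N)) :
    betaHom N q w = (upperRepInf hq hqN)⁻¹ * (upperCorr N q).conj ⟨u.1, hu⟩ *
      upperRepInf hq hqN := by
  set z : Gamma0 N := (upperRepInf hq hqN)⁻¹ with hz
  set ε := upperEps hq hqN
  set c := (upperCorr N q).conj ⟨u.1, hu⟩
  have hηε : !![(q : ℤ), 0; 0, 1] * imat ε.1 = imat z.1 * !![1, 0; 0, (q : ℤ)] := by
    show _ * ε.1.1 = z.1.1 * _
    rw [hz, upperRepInf_inv_val]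
    show _ * (upperEps hq hqN).1.1 = _
    rw [upperEps, mkGamma0_val]
    ext i j
    fin_cases i <;> fin_cases j <;>
      simp [Matrix.mul_apply, Fin.sum_univ_two, mul_comm]
  have hwε : imat w.1 * imat ε.1 = imat ε.1 * imat u.1 := by
    rw [hw]
    show ((ε.1 * u.1 * ε.1⁻¹) * ε.1).1 = (ε.1 * u.1).1
    rw [inv_mul_cancel_right]
  have hc : imat c.1 * !![1, 0; 0, (q : ℤ)] = !![1, 0; 0, (q : ℤ)] * imat u.1 :=
    alphaUp_spec ⟨u.1, hu⟩
  refine Subtype.ext (imat_inj (X := !![(q : ℤ), 0; 0, 1] * imat ε.1) ?_ ?_)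
  · rw [Matrix.det_mul, Matrix.det_fin_two_of, Matrix.SpecialLinearGroup.det_coe]
    simpa using hq.ne_zero
  · rw [← mul_assoc, ← betaHom_spec, mul_assoc, hwε, ← mul_assoc, hηε, mul_assoc, ← hc, ← mul_assoc,
      ← mul_assoc]
    congr 1
    show (z.1 * c.1).1 = (z.1 * c.1 * (upperRepInf hq hqN).1 * z.1).1
    rw [hz, Subgroup.coe_inv, mul_inv_cancel_right]

include hq hqN in
/-- `corA ∘ degB = ⟨q⟩ T_q`. -/
theorem psiCorA_degB (φ : clHoms R (GammaPsi Ψ) R) :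
    psiCorA Ψ q R (psiDegB Ψ q R φ) =
      diaOp R Ψ hΨ (Ψ (ZMod.unitOfCoprime q (hq.coprime_iff_not_dvd.mpr hqN)))
        (kerOp R Ψ hΨ hneg q φ) := by
  have hle := GammaPsi_le Ψ
  have hker := mem_GammaPsi Ψ
  set ε := upperEps hq hqN with hε
  set T := fun x => ((upperCorr N q).restrict hker (upperCorr_compat Ψ hΨ) hneg).op
    (A := R) x with hT
  have hdε : dChar Ψ ε = Ψ (ZMod.unitOfCoprime q (hq.coprime_iff_not_dvd.mpr hqN)) :=
    dChar_apply Ψ _ (by rw [hε, upperEps, mkGamma0_val]; simp)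
  have hdz : dChar Ψ (upperRepInf hq hqN) = 1 := dChar_eq_one Ψ (by
    rw [upperRepInf, mkGamma0_val]
    have h := congrArg (Int.cast : ℤ → ZMod N) (bezout_spec hq hqN)
    push_cast at h
    simpa using h)
  have h1 : ∀ ψ : Additive (GammaPsi Ψ) →+ R, conjChar hle hker 1 ψ = ψ := fun ψ =>
    addChar_ext fun h => congrArg ψ (congrArg Additive.ofMul (Subtype.ext (by simp [conjKer])))
  set S : Additive (GammaPsi Ψ) →+ R := (psiCorA Ψ q R (psiDegB Ψ q R φ)).1 with hS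
  have key : conjChar hle hker ε⁻¹ S = T φ.1 := by
    have hL : ∀ h : GammaPsi Ψ, (h : SL(2, ℤ)) ∈ upperGrp N q ⊓ GammaPsi Ψ ↔
        (conjKer (hHG := hle) hker ε⁻¹ h : SL(2, ℤ)) ∈ Gamma0 (N * q) ⊓ GammaPsi Ψ := fun h => by
      have hiff := mem_upper_iff_conj_mem hq hqN (Subgroup.inclusion hle h)
      have e : (conjKer (hHG := hle) hker ε⁻¹ h : SL(2, ℤ)) =
          (ε * Subgroup.inclusion hle h * ε⁻¹ : Gamma0 N) := by simp [conjKer]
      rw [Subgroup.mem_inf, Subgroup.mem_inf, e]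
      exact ⟨fun hh => ⟨hiff.mp hh.1, e ▸ SetLike.coe_mem _⟩,
        fun hh => ⟨hiff.mpr hh.1, h.2⟩⟩
    show (coresHom (inf_le_right : Gamma0 (N * q) ⊓ GammaPsi Ψ ≤ GammaPsi Ψ)
      ((psiDegB Ψ q R φ).1.comp (MonoidHom.toAdditive (pushHom hker
        (mem_GammaPsi (liftPsi Ψ q)) (Gamma0_le_mul N q) (MonoidHom.id _) (dChar_lift Ψ q))))).comp
      (MonoidHom.toAdditive (conjKer (hHG := hle) hker ε⁻¹)) = _
    rw [coresHom_comp_pre _ (inf_le_right : upperGrp N q ⊓ GammaPsi Ψ ≤ GammaPsi Ψ) _ hL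
      fun g => ?_]
    · have hφ : conjChar hle hker (upperRepInf hq hqN) φ.1 = φ.1 := by
        rw [conjChar_congr hle hker (show dChar Ψ _ = dChar Ψ 1 by rw [hdz, map_one]) φ.1, h1]
      conv_rhs => rw [hT, ← hφ]
      show coresHom _ _ = coresHom (inf_le_right : upperGrp N q ⊓ GammaPsi Ψ ≤ GammaPsi Ψ) _
      congr 1
      refine addChar_ext fun u => congrArg φ.1 (congrArg Additive.ofMul (Subtype.ext ?_))
      exact congrArg (fun y : Gamma0 N => (y : SL(2, ℤ)))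
        (betaHom_conj hq hqN ⟨u.1, hle u.2.2⟩ u.2.1 _ (by
          show (conjKer (hHG := hle) hker ε⁻¹ ⟨u.1, u.2.2⟩ : SL(2, ℤ)) = _
          simp [conjKer, hε]))
    · refine ⟨conjKer (hHG := hle) hker ε g, ?_⟩
      rw [show conjKer (hHG := hle) hker ε⁻¹ (conjKer (hHG := hle) hker ε g) = g from
        Subtype.ext (by simp [conjKer, mul_assoc]), inv_mul_cancel]
      exact one_mem _
  refine Subtype.ext ?_
  show S = conjChar hle hker (sec (dChar_surjective Ψ hΨ) _) (T φ.1)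
  rw [conjChar_congr hle hker (show dChar Ψ _ = dChar Ψ ε by rw [d_sec, hdε]) (T φ.1), ← key,
    conjChar_mul, mul_inv_cancel, h1]

/-! ### Operators away from `q` -/

variable {ℓ : ℕ} [NeZero ℓ] (hℓ : ℓ.Prime) (hne : ℓ ≠ q)

include hℓ hne hq in
/-- `degA` commutes with the operators away from `q`. -/
theorem psiDegA_kerOp (φ : clHoms R (GammaPsi Ψ) R) :
    psiDegA Ψ q R (kerOp R Ψ hΨ hneg ℓ φ) =
      kerOp R (liftPsi Ψ q) hΨ' hneg' ℓ (psiDegA Ψ q R φ) := by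
  let f := Subgroup.inclusion (Gamma0_le_mul N q)
  have hL : ∀ k : Gamma0 (N * q),
      (k : SL(2, ℤ)) ∈ upperGrp (N * q) ℓ ↔ (f k : SL(2, ℤ)) ∈ upperGrp N ℓ := fun k => by
    rw [mem_upperGrp, mem_upperGrp]
    exact ⟨fun ⟨h, h'⟩ => ⟨(f k).2, h'⟩, fun ⟨h, h'⟩ => ⟨k.2, h'⟩⟩
  refine Subtype.ext (pullChar_op (GammaPsi_le Ψ) (mem_GammaPsi Ψ) (GammaPsi_le _)
    (mem_GammaPsi (liftPsi Ψ q)) (upperCorr_compat Ψ hΨ) (upperCorr_compat _ hΨ') hneg hneg' f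
    (fun γ => (dChar_lift Ψ q γ).symm) hL (fun k => rfl) ?_ φ.1).symm
  have := (upperCorr N ℓ).fin₁
  exact exists_mem_of_index_eq (H := upperGrp N ℓ) f hL (by
    rw [upperGrp_subgroupOf, upperGrp_subgroupOf, index_upperSub_mul hℓ hq hne])

include hℓ hne hq in
/-- `degB` commutes with the operators away from `q`. -/
theorem psiDegB_kerOp (φ : clHoms R (GammaPsi Ψ) R) :
    psiDegB Ψ q R (kerOp R Ψ hΨ hneg ℓ φ) =
      kerOp R (liftPsi Ψ q) hΨ' hneg' ℓ (psiDegB Ψ q R φ) := by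
  let f := betaHom N q
  have hL := LevelLowering.mem_upperGrp_betaHom_iff (N := N) hℓ hq hne
  refine Subtype.ext (pullChar_op (GammaPsi_le Ψ) (mem_GammaPsi Ψ) (GammaPsi_le _)
    (mem_GammaPsi (liftPsi Ψ q)) (upperCorr_compat Ψ hΨ) (upperCorr_compat _ hΨ') hneg hneg' f
    (dChar_betaHom Ψ q) hL (fun k => Subtype.ext (Subtype.ext ?_)) ?_ φ.1).symm
  · obtain ⟨-, z, hz⟩ := mem_upperGrp.mp k.2
    obtain ⟨c, hc⟩ := Gamma0_dvd (Subgroup.inclusion (upperGrp_le (N * q) ℓ) k)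
    have hq0 : (q : ℤ) ≠ 0 := by exact_mod_cast NeZero.ne q
    have hℓ0 : (ℓ : ℤ) ≠ 0 := by exact_mod_cast NeZero.ne ℓ
    have hc' : k.1 1 0 = (q : ℤ) * ((N : ℤ) * c) := by
      rw [show k.1 1 0 = _ from hc]; push_cast; ring
    show ((upperCorr N ℓ).conj _).1.1 = (betaHom N q ((upperCorr (N * q) ℓ).conj k)).1.1
    rw [betaHom_val, upperCorr_conj_val, upperCorr_conj_val]
    show !![(betaHom N q _).1.1 0 0, (betaHom N q _).1.1 0 1 / _;
      _ * (betaHom N q _).1.1 1 0, (betaHom N q _).1.1 1 1] = _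
    rw [betaHom_val]
    ext i j
    fin_cases i <;> fin_cases j
    · rfl
    · show (q : ℤ) * k.1 0 1 / ℓ = (q : ℤ) * (k.1 0 1 / ℓ)
      rw [hz, Int.mul_ediv_cancel_left _ hℓ0, mul_left_comm, Int.mul_ediv_cancel_left _ hℓ0]
    · show (ℓ : ℤ) * (k.1 1 0 / q) = (ℓ : ℤ) * k.1 1 0 / q
      rw [hc', Int.mul_ediv_cancel_left _ hq0, mul_left_comm (ℓ : ℤ) (q : ℤ),
        Int.mul_ediv_cancel_left _ hq0]
    · rfl
  · have := (upperCorr N ℓ).fin₁
    exact exists_mem_of_index_eq (H := upperGrp N ℓ) f hL (by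
      rw [upperGrp_subgroupOf, upperGrp_subgroupOf, index_upperSub_mul hℓ hq hne])

include hℓ hne hq in
/-- `corA` commutes with the operators away from `q`. -/
theorem psiCorA_kerOp (χ : clHoms R (GammaPsi (liftPsi Ψ q)) R) :
    psiCorA Ψ q R (kerOp R (liftPsi Ψ q) hΨ' hneg' ℓ χ) =
      kerOp R Ψ hΨ hneg ℓ (psiCorA Ψ q R χ) := by
  have hLK := LevelLowering.upperGrp_mul_le (N := N) (q := q) (ℓ := ℓ)
  have hM2 := LevelLowering.mem_upperGrp_conj_iff (N := N) hℓ hq hne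
  have hidx := LevelLowering.index_upperGrp_subgroupOf (N := N) hℓ hq hne
  refine Subtype.ext (pushChar_op (GammaPsi_le Ψ) (mem_GammaPsi Ψ) (GammaPsi_le _)
    (mem_GammaPsi (liftPsi Ψ q)) (upperCorr_compat Ψ hΨ) (upperCorr_compat _ hΨ') hneg hneg'
    (Gamma0_le_mul N q) (MonoidHom.id _) (dChar_lift Ψ q) (M := upperGrp (N * q) ℓ)
    (upperGrp_le (N * q) ℓ) hLK (fun _ => Iff.rfl) hM2 (fun _ => rfl) (fun δ => ?_)
    (fun g => ⟨g, ?_⟩) (exists_mem_of_index_eq _ hM2 hidx) χ.1)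
  · obtain ⟨k, hk⟩ := exists_mem_upperGrp hΨ' ℓ δ
    exact ⟨k, (dChar_lift Ψ q _).symm.trans hk⟩
  · rw [MonoidHom.id_apply, inv_mul_cancel]
    exact one_mem _

include hℓ hne hq in
/-- `corB` commutes with the operators away from `q`. -/
theorem psiCorB_kerOp (χ : clHoms R (GammaPsi (liftPsi Ψ q)) R) :
    psiCorB Ψ q R (kerOp R (liftPsi Ψ q) hΨ' hneg' ℓ χ) =
      kerOp R Ψ hΨ hneg ℓ (psiCorB Ψ q R χ) := by
  have hqℓ : ¬ q ∣ ℓ := fun h => hne ((Nat.prime_dvd_prime_iff_eq hq hℓ).mp h).symm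
  have hLq := LevelLowering.upperGrp_le_of_mul_left (N := N) (q := q) (ℓ := ℓ)
  have hLℓ := LevelLowering.upperGrp_le_of_mul_right (N := N) (q := q) (ℓ := ℓ)
  have hq0 : (q : ℤ) ≠ 0 := by exact_mod_cast NeZero.ne q
  have hℓ0 : (ℓ : ℤ) ≠ 0 := by exact_mod_cast NeZero.ne ℓ
  have hLα := LevelLowering.mem_upperGrp_alphaUp_iff (N := N) (q := q) (ℓ := ℓ)
  have hLc := LevelLowering.mem_upperGrp_conj_upperGrp_iff (N := N) (q := q) (ℓ := ℓ)
  refine Subtype.ext (pushChar_op (GammaPsi_le Ψ) (mem_GammaPsi Ψ) (GammaPsi_le _)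
    (mem_GammaPsi (liftPsi Ψ q)) (upperCorr_compat Ψ hΨ) (upperCorr_compat _ hΨ') hneg hneg'
    (upperGrp_le N q) (alphaUp N q) (dChar_alphaUp Ψ q) (M := upperGrp N (q * ℓ))
    hLq hLℓ hLα hLc (fun u => Subtype.ext (Subtype.ext ?_)) (exists_mem_upperGrp hΨ (q * ℓ))
    (fun g => ⟨(upperCorr N q).e.symm g, ?_⟩)
    (fun g => ?_) χ.1)
  · show ((upperCorr (N * q) ℓ).conj ⟨_, _⟩).1.1 = (alphaUp N q ⟨_, _⟩).1.1
    rw [upperCorr_conj_val, alphaUp_val]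
    have e1 : ∀ i j, (alphaUp N q ⟨u.1, hLq u.2⟩).1.1 i j =
        !![u.1 0 0, u.1 0 1 / (q : ℤ); (q : ℤ) * u.1 1 0, u.1 1 1] i j := fun i j => by
      rw [alphaUp_val]
    have e2 : ∀ i j, ((upperCorr N ℓ).conj ⟨u.1, hLℓ u.2⟩).1.1 i j =
        !![u.1 0 0, u.1 0 1 / (ℓ : ℤ); (ℓ : ℤ) * u.1 1 0, u.1 1 1] i j := fun i j => by
      rw [upperCorr_conj_val]
    ext i j
    fin_cases i <;> fin_cases j
    · exact (e1 0 0).trans (e2 0 0).symm
    · refine (congrArg (· / (ℓ : ℤ)) (e1 0 1)).trans (Eq.trans ?_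
        (congrArg (· / (q : ℤ)) (e2 0 1)).symm)
      show u.1 0 1 / (q : ℤ) / ℓ = u.1 0 1 / (ℓ : ℤ) / q
      rw [Int.ediv_ediv_of_nonneg (Int.natCast_nonneg q),
        Int.ediv_ediv_of_nonneg (Int.natCast_nonneg ℓ), mul_comm (q : ℤ) (ℓ : ℤ)]
    · refine (congrArg ((ℓ : ℤ) * ·) (e1 1 0)).trans (Eq.trans ?_
        (congrArg ((q : ℤ) * ·) (e2 1 0)).symm)
      show (ℓ : ℤ) * ((q : ℤ) * u.1 1 0) = (q : ℤ) * ((ℓ : ℤ) * u.1 1 0)
      ring
    · exact (e1 1 1).trans (e2 1 1).symm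
  · rw [show alphaUp N q ((upperCorr N q).e.symm g) = g from
      (upperCorr N q).e.apply_symm_apply g, inv_mul_cancel]
    exact one_mem _
  · obtain ⟨s, -, hs⟩ := exists_kernel_middle (1 : (ZMod N)ˣ →* PUnit.{1}) hq hqℓ g
    exact ⟨s, hs⟩

end Fermat.Agent.Raising.Degen
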