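import Fermat.Agent.LevelLowering.FreeBase

/-!
# Intertwining generated algebras

If a linear map intertwines the generators of two commutative algebras of endomorphisms, it
intertwines the whole joint algebra, hence the idempotents of the same residual system.
-/

noncomputable section

namespace Fermat.Agent.Raising.Degen

open IsLocalRing Fermat.Agent.LevelLowering

variable {O : Type} [CommRing O] {A A' : Type} [CommRing A] [Algebra O A] [CommRing A']
  [Algebra O A'] {V V' : Type*} [AddCommGroup V] [Module O V] [AddCommGroup V'] [Module O V']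
  (ρ : A →ₐ[O] Module.End O V) (ρ' : A' →ₐ[O] Module.End O V') {ι : Type} (g : ι → A) (g' : ι → A')

/-- The joint algebra of two families of generators. -/
abbrev jointGen : Subalgebra O (A × A') :=
  Algebra.adjoin O (Set.range fun i => (g i, g' i))

variable {ρ ρ' g g'}

/-- Intertwining the generators, a map intertwines the joint algebra. -/
theorem intertwine_jointGen {F : V →ₗ[O] V'} (hF : ∀ i y, ρ' (g' i) (F y) = F (ρ (g i) y))
    {x : A × A'} (hx : x ∈ jointGen (O := O) g g') (y : V) : ρ' x.2 (F y) = F (ρ x.1 y) := by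
  induction hx using Algebra.adjoin_induction generalizing y with
  | mem x hx =>
    obtain ⟨i, rfl⟩ := hx
    exact hF i y
  | algebraMap r => simp
  | add x x' _ _ h h' => simp [h, h']
  | mul x x' _ _ h h' =>
    rw [Prod.snd_mul, Prod.fst_mul, map_mul, map_mul, Module.End.mul_apply, Module.End.mul_apply,
      h', h]

/-- Every element of the second algebra has a partner. -/
theorem exists_jointGen_right (hg' : Algebra.adjoin O (Set.range g') = ⊤) (a' : A') :
    ∃ a : A, (a, a') ∈ jointGen (O := O) g g' := by
  have ha : a' ∈ (jointGen (O := O) g g').map (AlgHom.snd O A A') := by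
    rw [AlgHom.map_adjoin, ← Set.range_comp]
    show a' ∈ Algebra.adjoin O (Set.range g')
    rw [hg']
    exact Algebra.mem_top
  obtain ⟨⟨b, b'⟩, hb, rfl⟩ := ha
  exact ⟨b, hb⟩

/-- Products of generators with the same indices are partners. -/
theorem jointGen_mul_gen (i j : ι) : (g i * g j, g' i * g' j) ∈ jointGen (O := O) g g' :=
  have hi : (g i, g' i) ∈ jointGen (O := O) g g' := Algebra.subset_adjoin ⟨i, rfl⟩
  have hj : (g j, g' j) ∈ jointGen (O := O) g g' := Algebra.subset_adjoin ⟨j, rfl⟩
  mul_mem hi hj

/-- Being partners is symmetric. -/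
theorem jointGen_swap {x : A × A'} (hx : x ∈ jointGen (O := O) g g') :
    (x.2, x.1) ∈ jointGen (O := O) g' g := by
  induction hx using Algebra.adjoin_induction with
  | mem x hx =>
    obtain ⟨i, rfl⟩ := hx
    exact Algebra.subset_adjoin ⟨i, rfl⟩
  | algebraMap c => exact (jointGen (O := O) g' g).algebraMap_mem c
  | add x y _ _ hx hy => exact add_mem hx hy
  | mul x y _ _ hx hy => exact mul_mem hx hy

variable [IsLocalRing O] [IsNoetherianRing O] [IsAdicComplete (maximalIdeal O) O]
  [Module.Finite O A] [Module.Finite O A']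

/-- **The idempotents of one residual system are partners.** -/
theorem idem_mem_jointGen (hg : Algebra.adjoin O (Set.range g) = ⊤)
    (hg' : Algebra.adjoin O (Set.range g') = ⊤) {c : ι → O} {e : A} {e' : A'}
    (hI : IsIdemAt (genIdeal g c) e) (hI' : IsIdemAt (genIdeal g' c) e') :
    (e, e') ∈ jointGen (O := O) g g' := by
  let C := jointGen (O := O) g g'
  let gC : ι → C := fun i => ⟨(g i, g' i), Algebra.subset_adjoin ⟨i, rfl⟩⟩
  have hgC : Algebra.adjoin O (Set.range gC) = ⊤ :=
    adjoin_range_mk_eq_top fun i => (g i, g' i)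
  have : Module.Finite O C := by
    have : IsNoetherian O (A × A') := isNoetherian_of_isNoetherianRing_of_finite O _
    exact Module.Finite.of_fg (IsNoetherian.noetherian C.toSubmodule)
  obtain ⟨eC, heC⟩ := exists_isIdemAt (O := O) C (genIdeal gC c)
    (genIdeal_isMaximal_or_top gC c hgC)
  have h1 := IsIdemAt.map_gen hgC hg (h := g) (d := c) ((AlgHom.fst O A A').comp C.val)
    (fun i => sub_mem_genIdeal g c i) (fun i => ⟨i, rfl, by simp⟩) heC
  have h2 := IsIdemAt.map_gen hgC hg' (h := g') (d := c) ((AlgHom.snd O A A').comp C.val)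
    (fun i => sub_mem_genIdeal g' c i) (fun i => ⟨i, rfl, by simp⟩) heC
  rw [hI.unique h1, hI'.unique h2]
  exact eC.2

/-- An intertwiner of the generators intertwines the idempotents. -/
theorem intertwine_idem (hg : Algebra.adjoin O (Set.range g) = ⊤)
    (hg' : Algebra.adjoin O (Set.range g') = ⊤) {c : ι → O} {e : A} {e' : A'}
    (hI : IsIdemAt (genIdeal g c) e) (hI' : IsIdemAt (genIdeal g' c) e') {F : V →ₗ[O] V'}
    (hF : ∀ i y, ρ' (g' i) (F y) = F (ρ (g i) y)) (y : V) : ρ' e' (F y) = F (ρ e y) :=
  intertwine_jointGen hF (idem_mem_jointGen hg hg' hI hI') y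

end Fermat.Agent.Raising.Degen
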