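import Mathlib.LinearAlgebra.Charpoly.Basic
import Fermat.Agent.Ihara.PairingMain
import Fermat.Agent.Ihara.RaiseModP
import Fermat.Agent.LevelLowering.FreeDegen
import Fermat.Agent.Raising.Degen.Intertwine

/-!
# Degeneracy maps at a residual system, modulo the maximal ideal

On the parts at a residual system `a` of the lattices at levels `N` and `N q`, reduced modulo the
maximal ideal, the pair of degeneracy maps is injective and the pair of transfers is surjective, as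
soon as one good prime of the system is not Eisenstein.
-/

noncomputable section

namespace Fermat.Agent.Raising.Degen

open scoped MatrixGroups IsMulCommutative
open CongruenceSubgroup IsLocalRing Polynomial Fermat.Agent.Grp Fermat.Agent.Ihara
  Fermat.Agent.LevelLowering

/-- Reduction of characters with values in `O`. -/
abbrev redCl {O : Type} [CommRing O] [IsLocalRing O] {Γ : Subgroup SL(2, ℤ)} :
    clHoms O Γ O →+ clHoms (ResidueField O) Γ (ResidueField O) :=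
  clMap (residue O)

section Reduction

variable {O : Type} [CommRing O] [IsLocalRing O] {Γ : Subgroup SL(2, ℤ)} [Γ.FiniteIndex]
  (hneg : (-1 : SL(2, ℤ)) ∈ Γ)

include hneg in
/-- Reduction of characters is surjective. -/
theorem redCl_surjective : Function.Surjective (redCl (O := O) (Γ := Γ)) := by
  intro χ
  obtain ⟨γ, e, he, -, hdec⟩ := clBasis_exists Γ hneg
  choose c hc using fun i =>
    residue_surjective (R := O) ((χ : Additive Γ →+ ResidueField O) (Additive.ofMul (γ i)))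
  refine ⟨∑ i, c i • clMap (Int.castRingHom O) (⟨e i, he i⟩ : clHoms ℤ Γ ℤ), ?_⟩
  refine Subtype.ext (AddMonoidHom.ext fun x => ?_)
  rw [map_sum, AddSubmonoidClass.coe_finsetSum, AddMonoidHom.finsetSum_apply,
    hdec (ResidueField O) χ.1 χ.2 x]
  refine Finset.sum_congr rfl fun i _ => ?_
  show residue O (c i * ((e i x : ℤ) : O)) = e i x • _
  rw [map_mul, hc, map_intCast, zsmul_eq_mul, mul_comm]

include hneg in
/-- The kernel of reduction consists of the multiples of a uniformiser. -/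
theorem exists_eq_smul_of_redCl_eq_zero {π : O} (hπ : maximalIdeal O = Ideal.span {π})
    {φ : clHoms O Γ O} (h : redCl φ = 0) : ∃ ψ : clHoms O Γ O, φ = π • ψ := by
  obtain ⟨γ, e, he, -, hdec⟩ := clBasis_exists Γ hneg
  have hm : ∀ i, ∃ c : O, c * π = (φ : Additive Γ →+ O) (Additive.ofMul (γ i)) := fun i => by
    rw [← Ideal.mem_span_singleton', ← hπ, ← residue_eq_zero_iff]
    exact DFunLike.congr_fun (congrArg Subtype.val h) (Additive.ofMul (γ i))
  choose c hc using hm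
  refine ⟨∑ i, c i • clMap (Int.castRingHom O) (⟨e i, he i⟩ : clHoms ℤ Γ ℤ), ?_⟩
  refine Subtype.ext (AddMonoidHom.ext fun x => ?_)
  rw [Submodule.coe_smul, AddMonoidHom.smul_apply, AddSubmonoidClass.coe_finsetSum,
    AddMonoidHom.finsetSum_apply, hdec O φ.1 φ.2 x, Finset.smul_sum]
  refine Finset.sum_congr rfl fun i _ => ?_
  show e i x • _ = π * (c i * ((e i x : ℤ) : O))
  rw [← hc i, zsmul_eq_mul]
  ring

omit [Γ.FiniteIndex] in
/-- Multiples by the maximal ideal reduce to zero. -/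
theorem redCl_smul_of_mem {r : O} (hr : r ∈ maximalIdeal O) (φ : clHoms O Γ O) :
    redCl (r • φ) = 0 := by
  rw [clMap_smul, (residue_eq_zero_iff _).mpr hr, zero_smul]

include hneg in
/-- An `O`-linear map respects congruence. -/
theorem redCl_map_congr [IsPrincipalIdealRing O] {Γ' : Subgroup SL(2, ℤ)}
    (F : clHoms O Γ O →ₗ[O] clHoms O Γ' O) {φ φ' : clHoms O Γ O} (h : redCl φ = redCl φ') :
    redCl (F φ) = redCl (F φ') := by
  obtain ⟨π, hπ⟩ := IsPrincipalIdealRing.principal (maximalIdeal O)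
  obtain ⟨ψ, hψ⟩ := exists_eq_smul_of_redCl_eq_zero hneg hπ
    (φ := φ - φ') (by rw [map_sub, h, sub_self])
  rw [← sub_eq_zero, ← map_sub, ← map_sub, hψ, map_smul]
  exact redCl_smul_of_mem (hπ ▸ Ideal.mem_span_singleton_self π) _

end Reduction

variable {O : Type} [CommRing O] [IsLocalRing O] [IsDomain O] [IsPrincipalIdealRing O]
  [IsAdicComplete (maximalIdeal O) O] [Finite (ResidueField O)]
  {N : ℕ} [NeZero N] (𝓟 : Set Nat.Primes) (a : Nat.Primes → ResidueField O)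

/-- Classes over a finite field form a finite set. -/
theorem finite_clH_field {k : Type} [Field k] [Finite k] (M : ℕ) [NeZero M] : Finite (clH k M) := by
  obtain ⟨e⟩ := nonempty_clHoms_equiv_pi (Gamma0 M) (neg_one_mem_Gamma0 M) k k
  exact Finite.of_equiv _ e.symm.toEquiv

omit [IsDomain O] [IsPrincipalIdealRing O] [IsAdicComplete (maximalIdeal O) O]
    [Finite (ResidueField O)] in
/-- Reduction commutes with `T_ℓ`. -/
theorem redCl_baseOp (ℓ : ℕ) [NeZero ℓ] (φ : clH O N) :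
    redCl (baseOp O N ℓ φ) = clT (ResidueField O) N ℓ (redCl φ) := by
  rw [show baseOp O N ℓ φ = clT O N ℓ φ from Subtype.ext (coe_baseOp O ℓ φ), clT_clMap]

omit [IsDomain O] [IsPrincipalIdealRing O] [IsAdicComplete (maximalIdeal O) O]
    [Finite (ResidueField O)] in
/-- Reduction commutes with the generators of the algebra. -/
theorem redCl_baseGen (i : 𝓟) (φ : clH O N) :
    haveI : NeZero (i.1 : ℕ) := ⟨i.1.2.ne_zero⟩
    redCl ((baseElt O N 𝓟 i).1 φ) = clT (ResidueField O) N i.1 (redCl φ) := by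
  have : NeZero (i.1 : ℕ) := ⟨i.1.2.ne_zero⟩
  exact redCl_baseOp _ φ

/-- A power of `T_i - a i` kills the reduction of the part at the system. -/
theorem exists_pow_sub_kills_redCl (i : 𝓟) :
    haveI : NeZero (i.1 : ℕ) := ⟨i.1.2.ne_zero⟩
    ∃ n : ℕ, ∀ y : clH O N, (baseIdem O N 𝓟 a).1 y = y →
      ((clT (ResidueField O) N i.1 - a i.1 • 1) ^ n) (redCl y) = 0 := by
  have : NeZero (i.1 : ℕ) := ⟨i.1.2.ne_zero⟩
  have : Finite (clH (ResidueField O) N) := finite_clH_field N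
  obtain ⟨hfree, hfin⟩ := free_clHoms (K := Gamma0 N) (neg_one_mem_Gamma0 N) O
  have hI := isIdemAt_baseIdem O N 𝓟 a
  let t : baseAlg O N 𝓟 := baseElt O N 𝓟 i - algebraMap O _ (liftSys O a i.1)
  let U : Module.End (ResidueField O) (clH (ResidueField O) N) :=
    clT (ResidueField O) N i.1 - a i.1 • 1
  have hU : ∀ φ : clH O N, redCl (t.1 φ) = U (redCl φ) := fun φ => by
    show redCl ((baseElt O N 𝓟 i).1 φ - liftSys O a i.1 • φ) = _
    rw [map_sub, clMap_smul, residue_liftSys, redCl_baseGen]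
    rfl
  have hUn : ∀ (m : ℕ) (φ : clH O N), redCl ((t ^ m : baseAlg O N 𝓟).1 φ) = (U ^ m) (redCl φ) :=
      fun m => by
    induction m with
    | zero => intro φ; rfl
    | succ m ih =>
      intro φ
      rw [pow_succ, pow_succ, Module.End.mul_apply, ← hU, ← ih]
      rfl
  -- the powers of `U` repeat
  have : Finite (Module.End (ResidueField O) (clH (ResidueField O) N)) :=
    Finite.of_injective _ DFunLike.coe_injective
  obtain ⟨m, d, h0⟩ : ∃ m d, U ^ m = U ^ m * U ^ (d + 1) := by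
    obtain ⟨m, n, hmn, hUmn⟩ := Finite.exists_ne_map_eq_of_infinite (fun m : ℕ => U ^ m)
    rcases lt_or_gt_of_ne hmn with hlt | hlt <;> obtain ⟨d, rfl⟩ := Nat.exists_eq_add_of_lt hlt
    · exact ⟨m, d, hUmn.trans (by rw [add_assoc, pow_add])⟩
    · exact ⟨n, d, hUmn.symm.trans (by rw [add_assoc, pow_add])⟩
  refine ⟨m, fun y hy => ?_⟩
  by_cases htop : baseIdeal O N 𝓟 a = ⊤
  · rw [← hy, hI.eq_zero_of_top htop]
    simp
  have htI : t ∈ baseIdeal O N 𝓟 a := sub_mem_genIdeal _ _ i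
  obtain ⟨b, hb⟩ := hI.exists_inv (1 - t ^ (d + 1)) fun h => htop ((Ideal.eq_top_iff_one _).mpr
    (by simpa using add_mem h (Ideal.pow_mem_of_mem _ htI (d + 1) (Nat.succ_pos d))))
  let z := (b * baseIdem O N 𝓟 a).1 y
  have hyz : y = z - (t ^ (d + 1)).1 z := by
    have h := congrArg (fun x : baseAlg O N 𝓟 => x.1 y) hb
    rw [mul_assoc, sub_mul, one_mul] at h
    exact (h.trans hy).symm
  rw [hyz, map_sub, hUn, map_sub]
  exact sub_eq_zero.mpr (LinearMap.congr_fun h0 _)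

section Operators

variable {k : Type} [Field k] {q : ℕ} [NeZero q] {ℓ : ℕ} [NeZero ℓ]
  (hℓ : ℓ.Prime) (hℓN : ¬ ℓ ∣ N) (hℓq : ¬ ℓ ∣ q) (c : k)

/-- `T_ℓ - c` at level `M`. -/
abbrev shiftT (M : ℕ) [NeZero M] : Module.End k (clH k M) := clT k M ℓ - c • 1

include hℓ hℓN hℓq in
/-- `i` commutes with `T_ℓ - c`. -/
theorem clI_shiftT (x : clH k N × clH k N) :
    clI k N q (shiftT (ℓ := ℓ) c N x.1, shiftT (ℓ := ℓ) c N x.2) =
      shiftT (ℓ := ℓ) c (N * q) (clI k N q x) := by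
  show clI k N q (clT k N ℓ x.1 - c • x.1, clT k N ℓ x.2 - c • x.2) =
    clT k (N * q) ℓ (clI k N q x) - c • clI k N q x
  refine eq_sub_of_add_eq (G := clH k (N * q)) ?_
  rw [← map_smul, ← map_add, clT_clI hℓ hℓN hℓq x]
  refine congrArg (clI k N q) (Prod.ext ?_ ?_) <;>
    exact sub_add_cancel (G := clH k N) _ _

include hℓ hℓN hℓq in
/-- `i` commutes with polynomials in `T_ℓ`. -/
theorem clI_aeval (p : k[X]) (x : clH k N × clH k N) :
    clI k N q (aeval (clT k N ℓ) p x.1, aeval (clT k N ℓ) p x.2) =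
      aeval (clT k (N * q) ℓ) p (clI k N q x) := by
  induction p using Polynomial.induction_on' generalizing x with
  | add p p' h h' =>
    rw [aeval_add, aeval_add]
    exact ((clI k N q).map_add (_, _) (_, _)).trans (congrArg₂ (· + ·) (h x) (h' x))
  | monomial n r =>
    rw [aeval_monomial, aeval_monomial, Module.End.mul_apply, Module.End.mul_apply,
      Module.End.mul_apply, Module.algebraMap_end_apply, Module.algebraMap_end_apply,
      Module.algebraMap_end_apply]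
    have hpow : clI k N q ((clT k N ℓ ^ n) x.1, (clT k N ℓ ^ n) x.2) =
        (clT k (N * q) ℓ ^ n) (clI k N q x) := by
      induction n with
      | zero => rfl
      | succ n ih =>
        rw [pow_succ', pow_succ', Module.End.mul_apply, Module.End.mul_apply, Module.End.mul_apply,
          ← ih, clT_clI hℓ hℓN hℓq]
    rw [← hpow]
    exact (congrArg (clI k N q) rfl).trans ((clI k N q).map_smul r (_, _))

variable {P : ∀ X : Lev, clHoms k X.grp k →ₗ[k] clHoms k X.grp k →ₗ[k] k}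
  (hP : IsPoincarePairing k P)

include hℓ hℓN hP in
/-- Polynomials in `T_ℓ` are self-adjoint for the pairing. -/
theorem pairAt_aeval (p : k[X]) (x y : clH k N) :
    pairAt P N (aeval (clT k N ℓ) p x) y = pairAt P N x (aeval (clT k N ℓ) p y) := by
  induction p using Polynomial.induction_on' generalizing x y with
  | add p p' h h' => simp only [LinearMap.add_apply, map_add, h, h']
  | monomial n r =>
    rw [aeval_monomial, Module.End.mul_apply, Module.End.mul_apply, Module.algebraMap_end_apply,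
      Module.algebraMap_end_apply, map_smul, LinearMap.smul_apply, map_smul]
    congr 1
    induction n generalizing x y with
    | zero => rfl
    | succ n ih =>
      conv_lhs => rw [pow_succ', Module.End.mul_apply]
      conv_rhs => rw [pow_succ, Module.End.mul_apply]
      rw [pairAt_clT hP hℓ hℓN, ih]

end Operators

/-- Splitting off the generalised eigenspace of `c` by a polynomial. -/
theorem exists_poly_split {k : Type} [Field k] {V : Type*} [AddCommGroup V] [Module k V]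
    [FiniteDimensional k V] (T : Module.End k V) (c : k) :
    ∃ R : k[X], (∃ m : ℕ, ∀ x, ((T - c • 1) ^ m) (aeval T R x) = 0) ∧
      ∀ n : ℕ, ∃ u : k[X], ∀ z, ((T - c • 1) ^ n) z = 0 → aeval T R (aeval T u z) = z := by
  have hshift : ∀ j : ℕ, aeval T ((X - C c) ^ j) = (T - c • 1) ^ j := fun j => by
    rw [map_pow, map_sub, aeval_X, aeval_C, Algebra.algebraMap_eq_smul_one]
  obtain ⟨R, hR, hRa⟩ :=
    T.charpoly.exists_eq_pow_rootMultiplicity_mul_and_not_dvd (LinearMap.charpoly_monic T).ne_zero c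
  refine ⟨R, ⟨T.charpoly.rootMultiplicity c, fun x => ?_⟩, fun n => ?_⟩
  · rw [← hshift, ← Module.End.mul_apply, ← map_mul, ← hR, LinearMap.aeval_self_charpoly]
    rfl
  · obtain ⟨u, v, huv⟩ : IsCoprime R ((X - C c) ^ n) :=
      ((irreducible_X_sub_C c).coprime_iff_not_dvd.mpr hRa).symm.pow_right
    refine ⟨u, fun z hz => ?_⟩
    have h := LinearMap.congr_fun (congrArg (aeval T) huv) z
    rw [map_add, map_mul, map_mul, map_one, LinearMap.add_apply, Module.End.mul_apply,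
      Module.End.mul_apply, Module.End.one_apply, hshift, hz, map_zero, add_zero,
      ← Module.End.mul_apply, ← map_mul, mul_comm, map_mul, Module.End.mul_apply] at h
    exact h

section Main

variable (q : ℕ) [NeZero q] (hq : q.Prime) (hqN : ¬ q ∣ N) {ℓ₀ : Nat.Primes} (hℓ₀ : ℓ₀ ∈ 𝓟)
  (hℓ₀N : ¬ (ℓ₀ : ℕ) ∣ N) (hℓ₀q : (ℓ₀ : ℕ) ≠ q)
  (hexp : ¬ ((ℓ₀ : ℕ) : ℤ) ∣ (q : ℤ) ^ (4 * N ^ 2) - 1)
  (h1 : a ℓ₀ ≠ ((ℓ₀ : ℕ) : ResidueField O) + 1) (h2 : a ℓ₀ ≠ -(((ℓ₀ : ℕ) : ResidueField O) + 1))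

omit [IsDomain O] [IsPrincipalIdealRing O] [IsAdicComplete (maximalIdeal O) O]
    [Finite (ResidueField O)] in
include hq hqN hℓ₀N hℓ₀q hexp h1 h2 in
/-- A vector of the residual generalised eigenspace in the kernel of `i` is zero. -/
theorem eq_zero_of_clI_eq_zero {n : ℕ}
    {w : clH (ResidueField O) N × clH (ResidueField O) N}
    (hn1 : haveI : NeZero (ℓ₀ : ℕ) := ⟨ℓ₀.2.ne_zero⟩
      ((clT (ResidueField O) N ℓ₀ - a ℓ₀ • 1) ^ n) w.1 = 0)
    (hn2 : haveI : NeZero (ℓ₀ : ℕ) := ⟨ℓ₀.2.ne_zero⟩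
      ((clT (ResidueField O) N ℓ₀ - a ℓ₀ • 1) ^ n) w.2 = 0)
    (hw : clI (ResidueField O) N q w = 0) : w = 0 := by
  have : NeZero (ℓ₀ : ℕ) := ⟨ℓ₀.2.ne_zero⟩
  have hℓq : ¬ (ℓ₀ : ℕ) ∣ q := fun h => hℓ₀q ((Nat.prime_dvd_prime_iff_eq ℓ₀.2 hq).mp h)
  induction n generalizing w with
  | zero => exact Prod.ext hn1 hn2
  | succ n ih =>
    have hw' := clI_shiftT (c := a ℓ₀) ℓ₀.2 hℓ₀N hℓq w
    rw [hw, map_zero] at hw'
    rw [pow_succ, Module.End.mul_apply] at hn1 hn2
    have h0 := ih (w := (shiftT (ℓ := (ℓ₀ : ℕ)) (a ℓ₀) N w.1, shiftT (ℓ := (ℓ₀ : ℕ)) (a ℓ₀) N w.2))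
      hn1 hn2 hw'
    refine ihara_eigen_eq_zero hq hqN (fun _ => a ℓ₀) ℓ₀.2 hℓ₀N hℓ₀q.symm hexp h1 h2 ?_ hw
    exact sub_eq_zero.mp (congrArg Prod.fst h0)

include hq hqN hℓ₀ hℓ₀N hℓ₀q hexp h1 h2 in
/-- **Ihara, residual form**: the pair of degeneracy maps is injective modulo the maximal ideal. -/
theorem degen_injective_mod {y₁ y₂ : clH O N} (hy₁ : (baseIdem O N 𝓟 a).1 y₁ = y₁)
    (hy₂ : (baseIdem O N 𝓟 a).1 y₂ = y₂) (h : redCl (clI O N q (y₁, y₂)) = 0) :
    redCl y₁ = 0 ∧ redCl y₂ = 0 := by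
  obtain ⟨n, hn⟩ := exists_pow_sub_kills_redCl (N := N) 𝓟 a ⟨ℓ₀, hℓ₀⟩
  have hi := clI_clMap (residue O) (q := q) (y₁, y₂)
  rw [h] at hi
  have h0 := eq_zero_of_clI_eq_zero a q hq hqN hℓ₀N hℓ₀q hexp h1 h2 (n := n)
    (w := (redCl y₁, redCl y₂)) (hn y₁ hy₁) (hn y₂ hy₂) hi
  exact ⟨congrArg Prod.fst h0, congrArg Prod.snd h0⟩

omit [IsLocalRing O] [IsDomain O] [IsPrincipalIdealRing O] [IsAdicComplete (maximalIdeal O) O]
    [Finite (ResidueField O)] in
include hq in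
/-- The first transfer commutes with the generators. -/
theorem baseElt_corA (hq𝓟 : ∀ i : 𝓟, (i.1 : ℕ) ≠ q) (i : 𝓟) (χ : clH O (N * q)) :
    (baseElt O N 𝓟 i).1 (clCorA O N q χ) = clCorA O N q ((baseElt O (N * q) 𝓟 i).1 χ) := by
  have : NeZero (i.1 : ℕ) := ⟨i.1.2.ne_zero⟩
  refine Subtype.ext ((coe_baseOp O _ _).trans ((op_corA i.1.2 hq (hq𝓟 i) χ.1).symm.trans ?_))
  exact congrArg (corA N q) (coe_baseOp O _ _).symm

omit [IsLocalRing O] [IsDomain O] [IsPrincipalIdealRing O] [IsAdicComplete (maximalIdeal O) O]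
    [Finite (ResidueField O)] in
include hq in
/-- The second transfer commutes with the generators. -/
theorem baseElt_corB (hq𝓟 : ∀ i : 𝓟, (i.1 : ℕ) ≠ q) (i : 𝓟) (χ : clH O (N * q)) :
    (baseElt O N 𝓟 i).1 (clCorB O N q χ) = clCorB O N q ((baseElt O (N * q) 𝓟 i).1 χ) := by
  have : NeZero (i.1 : ℕ) := ⟨i.1.2.ne_zero⟩
  refine Subtype.ext ((coe_baseOp O _ _).trans ((op_corB i.1.2 hq (hq𝓟 i) χ.1).symm.trans ?_))
  exact congrArg (corB N q) (coe_baseOp O _ _).symm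

omit [Finite (ResidueField O)] in
include hq in
/-- The transfers carry the part at level `N q` into the part at level `N`. -/
theorem baseIdem_cor (hq𝓟 : ∀ i : 𝓟, (i.1 : ℕ) ≠ q) (χ : clH O (N * q)) :
    (baseIdem O N 𝓟 a).1 (clCorA O N q χ) = clCorA O N q ((baseIdem O (N * q) 𝓟 a).1 χ) ∧
    (baseIdem O N 𝓟 a).1 (clCorB O N q χ) = clCorB O N q ((baseIdem O (N * q) 𝓟 a).1 χ) := by
  have := finite_baseAlg O N 𝓟
  have := finite_baseAlg O (N * q) 𝓟
  exact ⟨intertwine_idem (ρ := (baseAlg O (N * q) 𝓟).val) (ρ' := (baseAlg O N 𝓟).val)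
      (adjoin_baseElt O (N * q) 𝓟) (adjoin_baseElt O N 𝓟)
      (isIdemAt_baseIdem O (N * q) 𝓟 a) (isIdemAt_baseIdem O N 𝓟 a)
      (F := clCorA O N q) (baseElt_corA 𝓟 q hq hq𝓟) χ,
    intertwine_idem (ρ := (baseAlg O (N * q) 𝓟).val) (ρ' := (baseAlg O N 𝓟).val)
      (adjoin_baseElt O (N * q) 𝓟) (adjoin_baseElt O N 𝓟)
      (isIdemAt_baseIdem O (N * q) 𝓟 a) (isIdemAt_baseIdem O N 𝓟 a)
      (F := clCorB O N q) (baseElt_corB 𝓟 q hq hq𝓟) χ⟩

include hq hqN hℓ₀ hℓ₀N hℓ₀q hexp h1 h2 in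
/-- **The transfers are surjective modulo the maximal ideal on the parts at the system.** -/
theorem degen_surjective_mod (hq𝓟 : ∀ i : 𝓟, (i.1 : ℕ) ≠ q) {y₁ y₂ : clH O N}
    (hy₁ : (baseIdem O N 𝓟 a).1 y₁ = y₁) (hy₂ : (baseIdem O N 𝓟 a).1 y₂ = y₂) :
    ∃ χ : clH O (N * q), (baseIdem O (N * q) 𝓟 a).1 χ = χ ∧
      redCl (clCorA O N q χ) = redCl y₁ ∧ redCl (clCorB O N q χ) = redCl y₂ := by
  have : NeZero (ℓ₀ : ℕ) := ⟨ℓ₀.2.ne_zero⟩
  have hℓq : ¬ (ℓ₀ : ℕ) ∣ q := fun h => hℓ₀q ((Nat.prime_dvd_prime_iff_eq ℓ₀.2 hq).mp h)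
  have : FiniteDimensional (ResidueField O) (clH (ResidueField O) N) := by
    obtain ⟨e⟩ := nonempty_clHoms_equiv_pi (Gamma0 N) (neg_one_mem_Gamma0 N) (ResidueField O)
      (ResidueField O)
    exact Module.Finite.equiv e.symm
  obtain ⟨R, ⟨m, hkill⟩, hunit⟩ :=
    exists_poly_split (k := ResidueField O) (V := clH (ResidueField O) N)
      (clT (ResidueField O) N (ℓ₀ : ℕ)) (a ℓ₀)
  obtain ⟨n, hn⟩ := exists_pow_sub_kills_redCl (N := N) 𝓟 a ⟨ℓ₀, hℓ₀⟩
  obtain ⟨u, hu⟩ := hunit n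
  -- `R(T)` kills the kernel of `i`
  have hker : ∀ w, clI (ResidueField O) N q w = 0 →
      aeval (clT (ResidueField O) N (ℓ₀ : ℕ)) R w.1 = 0 ∧
        aeval (clT (ResidueField O) N (ℓ₀ : ℕ)) R w.2 = 0 := fun w hw => by
    have h0 := eq_zero_of_clI_eq_zero a q hq hqN hℓ₀N hℓ₀q hexp h1 h2 (n := m)
      (w := (_, _)) (hkill w.1) (hkill w.2) (by rw [clI_aeval ℓ₀.2 hℓ₀N hℓq, hw, map_zero])
    exact ⟨congrArg Prod.fst h0, congrArg Prod.snd h0⟩
  obtain ⟨P, hP⟩ := exists_poincarePairing (ResidueField O)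
  obtain ⟨χb, hχb⟩ := exists_clJ_eq hP (aeval (clT (ResidueField O) N (ℓ₀ : ℕ)) R)
    (pairAt_aeval ℓ₀.2 hℓ₀N hP R) hker
    (aeval (clT (ResidueField O) N (ℓ₀ : ℕ)) u (redCl y₁),
      aeval (clT (ResidueField O) N (ℓ₀ : ℕ)) u (redCl y₂))
  rw [hu _ (hn y₁ hy₁), hu _ (hn y₂ hy₂)] at hχb
  obtain ⟨χ, rfl⟩ := redCl_surjective (O := O) (neg_one_mem_Gamma0 (N * q)) χb
  have hj : (redCl (clCorA O N q χ), redCl (clCorB O N q χ)) = (redCl y₁, redCl y₂) :=
    (clJ_clMap (residue O) χ).symm.trans hχb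
  obtain ⟨hA, hB⟩ := baseIdem_cor 𝓟 a q hq hq𝓟 χ
  refine ⟨(baseIdem O (N * q) 𝓟 a).1 χ, ?_, ?_, ?_⟩
  · rw [← Module.End.mul_apply]
    exact LinearMap.congr_fun
      (congrArg Subtype.val (isIdemAt_baseIdem O (N * q) 𝓟 a).idem) χ
  · rw [← hA, ← hy₁]
    exact redCl_map_congr (neg_one_mem_Gamma0 N) _ (congrArg Prod.fst hj)
  · rw [← hB, ← hy₂]
    exact redCl_map_congr (neg_one_mem_Gamma0 N) _ (congrArg Prod.snd hj)

end Main

end Fermat.Agent.Raising.Degen
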