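import Fermat.Agent.Raising.Degen.Act
import Fermat.Agent.Raising.Degen.Ihara
import Fermat.Agent.Raising.Degen.Maps

/-!
# Degeneracy matrices

With `h = ⟨q⟩^{1/2}`, the maps `(degA, degB h⁻¹)` from two copies of level `N` to level `N q` and
`(corA, h corB)` back commute with the Hecke algebras away from `q`, compose to
`[[q+1, t], [t, q+1]]` with `t = T_q h`, and have one-sided inverses in coordinates.
-/

noncomputable section

namespace Fermat.Agent.Raising.Degen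

open scoped MatrixGroups IsMulCommutative
open CongruenceSubgroup IsLocalRing Fermat.Agent.Grp Fermat.Agent.Ihara Fermat.Agent.LevelLowering

section Formal

variable {O : Type} [CommRing O] {p r : ℕ} [Fact p.Prime] {lv : Fin r → ℕ} {N : ℕ} [NeZero N]
  {Ψ : (ZMod N)ˣ →* DiaGroup p lv} (hΨ : Function.Surjective Ψ)
  (hneg : (-1 : SL(2, ℤ)) ∈ GammaPsi Ψ) (𝓟 : Set Nat.Primes)
  {q : ℕ} [NeZero q] (hq : q.Prime) (hqN : ¬ q ∣ N)

/-- The square root of the diamond of `q`. -/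
def halfQ (Ψ : (ZMod N)ˣ →* DiaGroup p lv) : DiaGroup p lv :=
  diaHalf (Ψ (ZMod.unitOfCoprime q (hq.coprime_iff_not_dvd.mpr hqN)))

variable (O q) in
/-- The first component of `up`. -/
def upA (Ψ : (ZMod N)ˣ →* DiaGroup p lv) :
    clHoms O (GammaPsi Ψ) O →ₗ[O] clHoms O (GammaPsi (liftPsi Ψ q)) O :=
  psiDegA Ψ q O

variable (O) in
/-- The second component of `up`. -/
def upB : clHoms O (GammaPsi Ψ) O →ₗ[O] clHoms O (GammaPsi (liftPsi Ψ q)) O :=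
  psiDegB Ψ q O ∘ₗ diaOp O Ψ hΨ (halfQ hq hqN Ψ)⁻¹

variable (O q) in
/-- The first component of `down`. -/
def downA (Ψ : (ZMod N)ˣ →* DiaGroup p lv) :
    clHoms O (GammaPsi (liftPsi Ψ q)) O →ₗ[O] clHoms O (GammaPsi Ψ) O :=
  psiCorA Ψ q O

variable (O) in
/-- The second component of `down`. -/
def downB : clHoms O (GammaPsi (liftPsi Ψ q)) O →ₗ[O] clHoms O (GammaPsi Ψ) O :=
  diaOp O Ψ hΨ (halfQ hq hqN Ψ) ∘ₗ psiCorB Ψ q O

variable (O) in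
/-- The operator `T_q ⟨q⟩^{1/2}`. -/
def tEnd : Module.End O (clHoms O (GammaPsi Ψ) O) :=
  kerOp O Ψ hΨ hneg q * diaOp O Ψ hΨ (halfQ hq hqN Ψ)

omit [Fact (Nat.Prime p)] in
/-- Diamonds compose multiplicatively. -/
theorem diaOp_mul_apply (g h : DiaGroup p lv) (φ : clHoms O (GammaPsi Ψ) O) :
    diaOp O Ψ hΨ g (diaOp O Ψ hΨ h φ) = diaOp O Ψ hΨ (g * h) φ := by
  rw [map_mul]; rfl

omit [Fact (Nat.Prime p)] in
/-- The trivial diamond is the identity. -/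
theorem diaOp_one_apply (φ : clHoms O (GammaPsi Ψ) O) : diaOp O Ψ hΨ 1 φ = φ := by
  rw [map_one]; rfl

/-- Diamonds commute with the operators. -/
theorem diaOp_kerOp_apply (g : DiaGroup p lv) (ℓ : ℕ) [NeZero ℓ] (φ : clHoms O (GammaPsi Ψ) O) :
    diaOp O Ψ hΨ g (kerOp O Ψ hΨ hneg ℓ φ) = kerOp O Ψ hΨ hneg ℓ (diaOp O Ψ hΨ g φ) :=
  LinearMap.congr_fun (diaOp_kerOp O Ψ hΨ hneg g ℓ) φ

include hΨ hq hqN in
/-- `downA ∘ upA = q + 1`. -/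
theorem downA_upA (φ : clHoms O (GammaPsi Ψ) O) :
    downA O q Ψ (upA O q Ψ φ) = (q + 1) • φ :=
  psiCorA_degA O hΨ hq hqN φ

/-- `downA ∘ upB = T_q ⟨q⟩^{1/2}`. -/
theorem downA_upB (hp2 : p ≠ 2) (φ : clHoms O (GammaPsi Ψ) O) :
    downA O q Ψ (upB O hΨ hq hqN φ) = tEnd O hΨ hneg hq hqN φ := by
  show psiCorA Ψ q O (psiDegB Ψ q O (diaOp O Ψ hΨ _ φ)) = kerOp O Ψ hΨ hneg q (diaOp O Ψ hΨ _ φ)
  rw [psiCorA_degB O hΨ hneg hq hqN, diaOp_kerOp_apply, diaOp_mul_apply]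
  refine congrArg _ (LinearMap.congr_fun (congrArg (diaOp O Ψ hΨ) ?_) φ)
  rw [mul_inv_eq_iff_eq_mul, halfQ, ← pow_two, diaHalf_sq hp2]

/-- `downB ∘ upA = T_q ⟨q⟩^{1/2}`. -/
theorem downB_upA (φ : clHoms O (GammaPsi Ψ) O) :
    downB O hΨ hq hqN (upA O q Ψ φ) = tEnd O hΨ hneg hq hqN φ := by
  show diaOp O Ψ hΨ _ (psiCorB Ψ q O (psiDegA Ψ q O φ)) = kerOp O Ψ hΨ hneg q (diaOp O Ψ hΨ _ φ)
  rw [psiCorB_degA O hΨ hneg, diaOp_kerOp_apply]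

/-- `downB ∘ upB = q + 1`. -/
theorem downB_upB (φ : clHoms O (GammaPsi Ψ) O) :
    downB O hΨ hq hqN (upB O hΨ hq hqN φ) = (q + 1) • φ := by
  show diaOp O Ψ hΨ _ (psiCorB Ψ q O (psiDegB Ψ q O (diaOp O Ψ hΨ _ φ))) = _
  rw [psiCorB_degB O hΨ hq hqN, map_nsmul, diaOp_mul_apply, mul_inv_cancel, diaOp_one_apply]

/-! ### Diamonds -/

variable (hΨ' : Function.Surjective (liftPsi Ψ q))
  (hneg' : (-1 : SL(2, ℤ)) ∈ GammaPsi (liftPsi Ψ q))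

omit [Fact (Nat.Prime p)] in
/-- `upA` commutes with the diamonds. -/
theorem upA_diaOp (g : DiaGroup p lv) (φ : clHoms O (GammaPsi Ψ) O) :
    upA O q Ψ (diaOp O Ψ hΨ g φ) = diaOp O (liftPsi Ψ q) hΨ' g (upA O q Ψ φ) :=
  psiDegA_diaOp O hΨ hΨ' g φ

omit [Fact (Nat.Prime p)] in
/-- `upB` commutes with the diamonds. -/
theorem upB_diaOp (g : DiaGroup p lv) (φ : clHoms O (GammaPsi Ψ) O) :
    upB O hΨ hq hqN (diaOp O Ψ hΨ g φ) =
      diaOp O (liftPsi Ψ q) hΨ' g (upB O hΨ hq hqN φ) := by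
  show psiDegB Ψ q O (diaOp O Ψ hΨ _ (diaOp O Ψ hΨ g φ)) = _
  rw [diaOp_mul_apply, mul_comm _ g, ← diaOp_mul_apply, psiDegB_diaOp O hΨ hΨ']
  rfl

/-- `downA` commutes with the diamonds. -/
theorem downA_diaOp (g : DiaGroup p lv) (χ : clHoms O (GammaPsi (liftPsi Ψ q)) O) :
    downA O q Ψ (diaOp O (liftPsi Ψ q) hΨ' g χ) = diaOp O Ψ hΨ g (downA O q Ψ χ) :=
  psiCorA_diaOp O hΨ hΨ' g χ

/-- `downB` commutes with the diamonds. -/
theorem downB_diaOp (g : DiaGroup p lv) (χ : clHoms O (GammaPsi (liftPsi Ψ q)) O) :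
    downB O hΨ hq hqN (diaOp O (liftPsi Ψ q) hΨ' g χ) =
      diaOp O Ψ hΨ g (downB O hΨ hq hqN χ) := by
  show diaOp O Ψ hΨ _ (psiCorB Ψ q O (diaOp O (liftPsi Ψ q) hΨ' g χ)) = _
  rw [psiCorB_diaOp O hΨ hΨ', diaOp_mul_apply, mul_comm _ g, ← diaOp_mul_apply]
  rfl

/-! ### Partners -/

variable (O) in
/-- Elements of the two Hecke algebras given by the same word in the generators. -/
abbrev LevelPartner (x : levelAlg O Ψ hΨ hneg 𝓟)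
    (x' : levelAlg O (liftPsi Ψ q) hΨ' hneg' 𝓟) : Prop :=
  (x, x') ∈ jointGen (O := O) (levelElt O Ψ hΨ hneg 𝓟) (levelElt O (liftPsi Ψ q) hΨ' hneg' 𝓟)

/-- Every element of the upper algebra has a partner below. -/
theorem exists_partner_of_top (x' : levelAlg O (liftPsi Ψ q) hΨ' hneg' 𝓟) :
    ∃ x, LevelPartner O hΨ hneg 𝓟 hΨ' hneg' x x' :=
  exists_jointGen_right (adjoin_levelElt O (liftPsi Ψ q) hΨ' hneg' 𝓟) x'

/-- The twisted generators at the two levels are partners. -/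
theorem levelPartner_twElt (ℓ : 𝓟) (h : ¬ (ℓ.1 : ℕ) ∣ N) (h' : ¬ (ℓ.1 : ℕ) ∣ N * q) :
    LevelPartner O hΨ hneg 𝓟 hΨ' hneg' (twElt Ψ hΨ hneg 𝓟 ℓ h)
      (twElt (liftPsi Ψ q) hΨ' hneg' 𝓟 ℓ h') := by
  have e : liftPsi Ψ q (ZMod.unitOfCoprime (ℓ.1 : ℕ) (ℓ.1.2.coprime_iff_not_dvd.mpr h')) =
      Ψ (ZMod.unitOfCoprime (ℓ.1 : ℕ) (ℓ.1.2.coprime_iff_not_dvd.mpr h)) :=
    congrArg Ψ (Units.ext (map_natCast (ZMod.castHom (dvd_mul_right N q) (ZMod N)) _))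
  have key : ∀ δ δ', δ = δ' →
      (levelElt O Ψ hΨ hneg 𝓟 (.inl ℓ) * levelElt O Ψ hΨ hneg 𝓟 (.inr δ'),
        levelElt O (liftPsi Ψ q) hΨ' hneg' 𝓟 (.inl ℓ) *
          levelElt O (liftPsi Ψ q) hΨ' hneg' 𝓟 (.inr δ)) ∈
        jointGen (O := O) (levelElt O Ψ hΨ hneg 𝓟) (levelElt O (liftPsi Ψ q) hΨ' hneg' 𝓟) := by
    rintro δ δ' rfl
    exact jointGen_mul_gen (O := O) (g := levelElt O Ψ hΨ hneg 𝓟)
      (g' := levelElt O (liftPsi Ψ q) hΨ' hneg' 𝓟) (.inl ℓ) (.inr δ)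
  exact key _ _ (congrArg diaHalf e)

variable (hq𝓟 : ∀ i : 𝓟, (i.1 : ℕ) ≠ q)

include hq hq𝓟 in
/-- `upA` intertwines partners. -/
theorem upA_intertwine {x : levelAlg O Ψ hΨ hneg 𝓟} {x' : levelAlg O (liftPsi Ψ q) hΨ' hneg' 𝓟}
    (h : LevelPartner O hΨ hneg 𝓟 hΨ' hneg' x x') (φ : clHoms O (GammaPsi Ψ) O) :
    x'.1.1 (upA O q Ψ φ) = upA O q Ψ (x.1.1 φ) :=
  intertwine_jointGen
    (ρ := (AlgHom.fst O _ _).comp (levelAlg O Ψ hΨ hneg 𝓟).val)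
    (ρ' := (AlgHom.fst O _ _).comp (levelAlg O (liftPsi Ψ q) hΨ' hneg' 𝓟).val)
    (F := upA O q Ψ) (fun i ψ => by
      rcases i with ℓ | δ
      · have : NeZero (ℓ.1 : ℕ) := ⟨ℓ.1.2.ne_zero⟩
        exact (psiDegA_kerOp O hΨ hneg hΨ' hneg' hq ℓ.1.2 (hq𝓟 ℓ) ψ).symm
      · exact (upA_diaOp hΨ hΨ' δ ψ).symm) h φ

include hq𝓟 in
/-- `upB` intertwines partners. -/
theorem upB_intertwine {x : levelAlg O Ψ hΨ hneg 𝓟} {x' : levelAlg O (liftPsi Ψ q) hΨ' hneg' 𝓟}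
    (h : LevelPartner O hΨ hneg 𝓟 hΨ' hneg' x x') (φ : clHoms O (GammaPsi Ψ) O) :
    x'.1.1 (upB O hΨ hq hqN φ) = upB O hΨ hq hqN (x.1.1 φ) :=
  intertwine_jointGen
    (ρ := (AlgHom.fst O _ _).comp (levelAlg O Ψ hΨ hneg 𝓟).val)
    (ρ' := (AlgHom.fst O _ _).comp (levelAlg O (liftPsi Ψ q) hΨ' hneg' 𝓟).val)
    (F := upB O hΨ hq hqN) (fun i ψ => by
      rcases i with ℓ | δ
      · have : NeZero (ℓ.1 : ℕ) := ⟨ℓ.1.2.ne_zero⟩
        show kerOp O (liftPsi Ψ q) hΨ' hneg' ℓ.1 (psiDegB Ψ q O (diaOp O Ψ hΨ _ ψ)) =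
          psiDegB Ψ q O (diaOp O Ψ hΨ _ (kerOp O Ψ hΨ hneg ℓ.1 ψ))
        rw [diaOp_kerOp_apply, psiDegB_kerOp O hΨ hneg hΨ' hneg' hq ℓ.1.2 (hq𝓟 ℓ)]
      · exact (upB_diaOp hΨ hq hqN hΨ' δ ψ).symm) h φ

include hq hq𝓟 in
/-- `downA` intertwines partners. -/
theorem downA_intertwine {x : levelAlg O Ψ hΨ hneg 𝓟} {x' : levelAlg O (liftPsi Ψ q) hΨ' hneg' 𝓟}
    (h : LevelPartner O hΨ hneg 𝓟 hΨ' hneg' x x') (χ : clHoms O (GammaPsi (liftPsi Ψ q)) O) :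
    x.1.1 (downA O q Ψ χ) = downA O q Ψ (x'.1.1 χ) :=
  intertwine_jointGen
    (ρ := (AlgHom.fst O _ _).comp (levelAlg O (liftPsi Ψ q) hΨ' hneg' 𝓟).val)
    (ρ' := (AlgHom.fst O _ _).comp (levelAlg O Ψ hΨ hneg 𝓟).val)
    (F := downA O q Ψ) (fun i ψ => by
      rcases i with ℓ | δ
      · have : NeZero (ℓ.1 : ℕ) := ⟨ℓ.1.2.ne_zero⟩
        exact (psiCorA_kerOp O hΨ hneg hΨ' hneg' hq ℓ.1.2 (hq𝓟 ℓ) ψ).symm
      · exact (downA_diaOp hΨ hΨ' δ ψ).symm) (jointGen_swap h) χ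

include hq𝓟 in
/-- `downB` intertwines partners. -/
theorem downB_intertwine {x : levelAlg O Ψ hΨ hneg 𝓟} {x' : levelAlg O (liftPsi Ψ q) hΨ' hneg' 𝓟}
    (h : LevelPartner O hΨ hneg 𝓟 hΨ' hneg' x x') (χ : clHoms O (GammaPsi (liftPsi Ψ q)) O) :
    x.1.1 (downB O hΨ hq hqN χ) = downB O hΨ hq hqN (x'.1.1 χ) :=
  intertwine_jointGen
    (ρ := (AlgHom.fst O _ _).comp (levelAlg O (liftPsi Ψ q) hΨ' hneg' 𝓟).val)
    (ρ' := (AlgHom.fst O _ _).comp (levelAlg O Ψ hΨ hneg 𝓟).val)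
    (F := downB O hΨ hq hqN) (fun i ψ => by
      rcases i with ℓ | δ
      · have : NeZero (ℓ.1 : ℕ) := ⟨ℓ.1.2.ne_zero⟩
        show kerOp O Ψ hΨ hneg ℓ.1 (diaOp O Ψ hΨ _ (psiCorB Ψ q O ψ)) =
          diaOp O Ψ hΨ _ (psiCorB Ψ q O (kerOp O (liftPsi Ψ q) hΨ' hneg' ℓ.1 ψ))
        rw [psiCorB_kerOp O hΨ hneg hΨ' hneg' hq ℓ.1.2 (hq𝓟 ℓ), diaOp_kerOp_apply]
      · exact (downB_diaOp hΨ hq hqN hΨ' δ ψ).symm) (jointGen_swap h) χ

/-! ### Corestriction to `Γ₀` -/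

include hΨ' in
/-- `upA` lies over `degA` at `Γ₀`. -/
theorem cores_upA (φ : clHoms O (GammaPsi Ψ) O) :
    coresCl (GammaPsi_le (liftPsi Ψ q)) O O (upA O q Ψ φ) =
      clDegA O N q (coresCl (GammaPsi_le Ψ) O O φ) :=
  cores_psiDegA O hΨ' φ

include hΨ in
/-- `downA` lies over `corA` at `Γ₀`. -/
theorem cores_downA (χ : clHoms O (GammaPsi (liftPsi Ψ q)) O) :
    coresCl (GammaPsi_le Ψ) O O (downA O q Ψ χ) =
      clCorA O N q (coresCl (GammaPsi_le (liftPsi Ψ q)) O O χ) :=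
  cores_psiCorA O hΨ χ

variable [IsAddTorsionFree O]

include hneg in
/-- Corestriction to `Γ₀` forgets the diamonds. -/
theorem cores_diaOp (g : DiaGroup p lv) (φ : clHoms O (GammaPsi Ψ) O) :
    coresCl (GammaPsi_le Ψ) O O (diaOp O Ψ hΨ g φ) = coresCl (GammaPsi_le Ψ) O O φ :=
  (LinearMap.congr_fun ((levelAlg_compat O Ψ hΨ hneg ∅
    (levelElt O Ψ hΨ hneg ∅ (.inr g)).2).2.1) φ).symm

include hneg hΨ' in
/-- `upB` lies over `degB` at `Γ₀`. -/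
theorem cores_upB (φ : clHoms O (GammaPsi Ψ) O) :
    coresCl (GammaPsi_le (liftPsi Ψ q)) O O (upB O hΨ hq hqN φ) =
      clDegB O N q (coresCl (GammaPsi_le Ψ) O O φ) := by
  rw [← cores_diaOp hΨ hneg (halfQ hq hqN Ψ)⁻¹ φ]
  exact cores_psiDegB O hΨ' _

include hneg in
/-- `downB` lies over `corB` at `Γ₀`. -/
theorem cores_downB (χ : clHoms O (GammaPsi (liftPsi Ψ q)) O) :
    coresCl (GammaPsi_le Ψ) O O (downB O hΨ hq hqN χ) =
      clCorB O N q (coresCl (GammaPsi_le (liftPsi Ψ q)) O O χ) := by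
  rw [← cores_psiCorB O hΨ χ]
  exact cores_diaOp hΨ hneg _ _

end Formal

variable {O : Type} [CommRing O] [IsDomain O] [IsDiscreteValuationRing O]
  [IsAdicComplete (maximalIdeal O) O] [IsAddTorsionFree O]
  {p r : ℕ} [Fact p.Prime] [CharP (ResidueField O) p] {lv : Fin r → ℕ} {N : ℕ} [NeZero N]
  {Ψ : (ZMod N)ˣ →* DiaGroup p lv} (hΨ : Function.Surjective Ψ)
  (hneg : (-1 : SL(2, ℤ)) ∈ GammaPsi Ψ) (𝓟 : Set Nat.Primes) (a : Nat.Primes → ResidueField O)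
  {q : ℕ} [NeZero q] (hq : q.Prime) (hqN : ¬ q ∣ N)
  (hΨ' : Function.Surjective (liftPsi Ψ q))
  (hneg' : (-1 : SL(2, ℤ)) ∈ GammaPsi (liftPsi Ψ q)) (hq𝓟 : ∀ i : 𝓟, (i.1 : ℕ) ≠ q)

local notation "Sd" => MvPowerSeries (Fin r) O ⧸ diamondIdeal (𝒪 := O) p lv

omit [IsAddTorsionFree O] [CharP (ResidueField O) p] in
/-- The idempotents of the system at the two levels are partners. -/
theorem levelPartner_levelIdem :
    LevelPartner O hΨ hneg 𝓟 hΨ' hneg' (levelIdem O Ψ hΨ hneg 𝓟 a)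
      (levelIdem O (liftPsi Ψ q) hΨ' hneg' 𝓟 a) := by
  have := finite_levelAlg O Ψ hΨ hneg 𝓟
  have := finite_levelAlg O (liftPsi Ψ q) hΨ' hneg' 𝓟
  exact idem_mem_jointGen (adjoin_levelElt O Ψ hΨ hneg 𝓟)
    (adjoin_levelElt O (liftPsi Ψ q) hΨ' hneg' 𝓟) (isIdemAt_levelIdem O Ψ hΨ hneg 𝓟 a)
    (isIdemAt_levelIdem O (liftPsi Ψ q) hΨ' hneg' 𝓟 a)

/-! ### The matrices -/

variable {d d' : ℕ} {v : Fin d → clHoms O (GammaPsi Ψ) O}
  {v' : Fin d' → clHoms O (GammaPsi (liftPsi Ψ q)) O}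
  (hv : IsFreePart (diaOp O Ψ hΨ) (partIdem Ψ hΨ hneg 𝓟 a) v)
  (hv' : IsFreePart (diaOp O (liftPsi Ψ q) hΨ') (partIdem (liftPsi Ψ q) hΨ' hneg' 𝓟 a) v')

include hv in
/-- The corestrictions of a free family are a basis of the part at `Γ₀`. -/
theorem cores_basis (hker : ∀ g : Gamma0 N, |tr (g : SL(2, ℤ))| ≤ 2 → dChar Ψ g = 1)
    {ℓ₀ : Nat.Primes} (hℓ₀ : ℓ₀ ∈ 𝓟) (hℓ₀N : ¬ (ℓ₀ : ℕ) ∣ N)
    (h1 : a ℓ₀ ≠ ((ℓ₀ : ℕ) : ResidueField O) + 1) (x : clH O N)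
    (hx : (baseIdem O N 𝓟 a).1 x = x) :
    ∃! b : Fin d → O, ∑ i, b i • coresCl (GammaPsi_le Ψ) O O (v i) = x := by
  obtain ⟨n, v₀, hv₀, hfree, hbase⟩ :=
    level_free_of_ker O Ψ hΨ hneg 𝓟 a hker isPGroup_diaGroup hℓ₀ hℓ₀N h1
  rw [levelIdem_snd O 𝓟 a Ψ hΨ hneg] at hbase
  exact IsFreePart.base_transfer (ρ := diaOp O Ψ hΨ) (partIdem_diaOp Ψ hΨ hneg 𝓟 a) _
    (coresCl (GammaPsi_le Ψ) O O) (cores_diaOp hΨ hneg) ⟨hv₀, hfree⟩ hbase hv x hx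

omit [CharP (ResidueField O) p] in
/-- Corestriction carries the part into the part at `Γ₀`. -/
theorem cores_fixed {M : ℕ} [NeZero M] {Φ : (ZMod M)ˣ →* DiaGroup p lv}
    (hΦ : Function.Surjective Φ) (hn : (-1 : SL(2, ℤ)) ∈ GammaPsi Φ)
    {w : clHoms O (GammaPsi Φ) O} (hw : partIdem Φ hΦ hn 𝓟 a w = w) :
    (baseIdem O M 𝓟 a).1 (coresCl (GammaPsi_le Φ) O O w) = coresCl (GammaPsi_le Φ) O O w := by
  have h := LinearMap.congr_fun (levelAlg_compat O Φ hΦ hn 𝓟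
    (levelIdem O Φ hΦ hn 𝓟 a).2).2.1 w
  rw [LinearMap.comp_apply, LinearMap.comp_apply, levelIdem_snd O 𝓟 a Φ hΦ hn] at h
  rw [h]
  exact congrArg (coresCl (GammaPsi_le Φ) O O) hw

omit [IsAdicComplete (maximalIdeal O) O] [IsAddTorsionFree O] in
/-- Congruent to zero means congruent to zero in every coordinate. -/
theorem residue_coeff_eq_zero {M : ℕ} [NeZero M] {e₀ : baseEnd O M} {d : ℕ}
    {b : Fin d → clH O M} (hb : ∀ i, e₀ (b i) = b i)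
    (hbase : ∀ x, e₀ x = x → ∃! c : Fin d → O, ∑ i, c i • b i = x) {c : Fin d → O}
    (h : redCl (∑ i, c i • b i) = 0) (i : Fin d) : residue O (c i) = 0 := by
  obtain ⟨π, hπ⟩ := IsPrincipalIdealRing.principal (maximalIdeal O)
  obtain ⟨z, hz⟩ := exists_eq_smul_of_redCl_eq_zero (neg_one_mem_Gamma0 M) hπ h
  have hfix : e₀ (∑ i, c i • b i) = ∑ i, c i • b i := by simp only [map_sum, map_smul, hb]
  have hez : e₀ z = z := by
    rw [hz, map_smul] at hfix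
    refine Subtype.ext (AddMonoidHom.ext fun x => ?_)
    have h0 := DFunLike.congr_fun (congrArg Subtype.val hfix) x
    refine mul_left_cancel₀ (fun h0 : π = 0 => ?_) h0
    exact IsDiscreteValuationRing.not_a_field O (hπ.trans (by rw [h0]; simp))
  obtain ⟨c₀, hc₀, -⟩ := hbase z hez
  obtain ⟨_, -, huniq⟩ := hbase _ hfix
  have e1 := huniq (fun i => π * c₀ i)
    (by simp only [mul_smul, ← Finset.smul_sum, hc₀]; exact hz.symm)
  have e2 := huniq c rfl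
  rw [residue_eq_zero_iff, hπ, e2, ← e1]
  exact Ideal.mem_span_singleton.mpr (dvd_mul_right _ _)

omit [IsAdicComplete (maximalIdeal O) O] [IsAddTorsionFree O] in
/-- Congruent combinations have congruent coordinates. -/
theorem residue_coeff_eq {M : ℕ} [NeZero M] {e₀ : baseEnd O M} {d : ℕ} {b : Fin d → clH O M}
    (hb : ∀ i, e₀ (b i) = b i) (hbase : ∀ x, e₀ x = x → ∃! c : Fin d → O, ∑ i, c i • b i = x)
    {c c' : Fin d → O} (h : redCl (∑ i, c i • b i) = redCl (∑ i, c' i • b i)) (i : Fin d) :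
    residue O (c i) = residue O (c' i) := by
  rw [← sub_eq_zero, ← map_sub]
  refine residue_coeff_eq_zero hb hbase (c := fun i => c i - c' i) ?_ i
  have e : ∑ i, (c i - c' i) • b i + ∑ i, c' i • b i = ∑ i, c i • b i := by
    rw [← Finset.sum_add_distrib]
    exact Finset.sum_congr rfl fun i _ => by rw [← add_smul, sub_add_cancel]
  rw [← e, map_add] at h
  exact add_eq_right.mp h

omit [CharP (ResidueField O) p] in
include hv hv' hΨ hneg hΨ' hneg' hq hqN hq𝓟 in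
/-- The degeneracy matrices intertwine the actions of partners in the two Hecke algebras. -/
theorem degenMat_intertwine {MA MB : Matrix (Fin d') (Fin d) Sd}
    {DA DB : Matrix (Fin d) (Fin d') Sd}
    (hMA : IsPartMat (diaOp O (liftPsi Ψ q) hΨ') v v' (upA O q Ψ) MA)
    (hMB : IsPartMat (diaOp O (liftPsi Ψ q) hΨ') v v' (upB O hΨ hq hqN) MB)
    (hDA : IsPartMat (diaOp O Ψ hΨ) v' v (downA O q Ψ) DA)
    (hDB : IsPartMat (diaOp O Ψ hΨ) v' v (downB O hΨ hq hqN) DB)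
    (act : levelAlg O Ψ hΨ hneg 𝓟 → Matrix (Fin d) (Fin d) Sd)
    (hact : ∀ x, IsPartMat (diaOp O Ψ hΨ) v v x.1.1 (act x))
    (act' : levelAlg O (liftPsi Ψ q) hΨ' hneg' 𝓟 → Matrix (Fin d') (Fin d') Sd)
    (hact' : ∀ x, IsPartMat (diaOp O (liftPsi Ψ q) hΨ') v' v' x.1.1 (act' x))
    {x x'} (h : LevelPartner O hΨ hneg 𝓟 hΨ' hneg' x x') :
    Matrix.fromCols MA MB * Matrix.fromBlocks (act x) 0 0 (act x) =
        act' x' * Matrix.fromCols MA MB ∧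
      Matrix.fromRows DA DB * act' x' =
        Matrix.fromBlocks (act x) 0 0 (act x) * Matrix.fromRows DA DB := by
  have heρ := partIdem_diaOp Ψ hΨ hneg 𝓟 a
  have heρ' := partIdem_diaOp (liftPsi Ψ q) hΨ' hneg' 𝓟 a
  constructor
  · rw [Matrix.fromCols_mul_fromBlocks, Matrix.mul_fromCols, Matrix.mul_zero, Matrix.mul_zero,
      add_zero, zero_add]
    have e1 := ((hact x).comp hMA (upA_diaOp hΨ hΨ')).eq_of hv' heρ'
      (hMA.comp (hact' x') (levelAlg_diaOp (liftPsi Ψ q) hΨ' hneg' 𝓟 x'))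
      fun j => (upA_intertwine hΨ hneg 𝓟 hq hΨ' hneg' hq𝓟 h (v j)).symm
    have e2 := ((hact x).comp hMB (upB_diaOp hΨ hq hqN hΨ')).eq_of hv' heρ'
      (hMB.comp (hact' x') (levelAlg_diaOp (liftPsi Ψ q) hΨ' hneg' 𝓟 x'))
      fun j => (upB_intertwine hΨ hneg 𝓟 hq hqN hΨ' hneg' hq𝓟 h (v j)).symm
    rw [e1, e2]
  · rw [Matrix.fromRows_mul, Matrix.fromBlocks_mul_fromRows, Matrix.zero_mul, Matrix.zero_mul,
      add_zero, zero_add]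
    have e1 := ((hact' x').comp hDA (downA_diaOp hΨ hΨ')).eq_of hv heρ
      (hDA.comp (hact x) (levelAlg_diaOp Ψ hΨ hneg 𝓟 x))
      fun j => (downA_intertwine hΨ hneg 𝓟 hq hΨ' hneg' hq𝓟 h (v' j)).symm
    have e2 := ((hact' x').comp hDB (downB_diaOp hΨ hq hqN hΨ')).eq_of hv heρ
      (hDB.comp (hact x) (levelAlg_diaOp Ψ hΨ hneg 𝓟 x))
      fun j => (downB_intertwine hΨ hneg 𝓟 hq hqN hΨ' hneg' hq𝓟 h (v' j)).symm
    rw [e1, e2]

omit [CharP (ResidueField O) p] in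
include hv hΨ hneg hΨ' hq hqN in
/-- Down after up is `[[q + 1, t], [t, q + 1]]`. -/
theorem degenMat_comp (hp2 : p ≠ 2) {MA MB : Matrix (Fin d') (Fin d) Sd}
    {DA DB : Matrix (Fin d) (Fin d') Sd} {t : Matrix (Fin d) (Fin d) Sd}
    (hMA : IsPartMat (diaOp O (liftPsi Ψ q) hΨ') v v' (upA O q Ψ) MA)
    (hMB : IsPartMat (diaOp O (liftPsi Ψ q) hΨ') v v' (upB O hΨ hq hqN) MB)
    (hDA : IsPartMat (diaOp O Ψ hΨ) v' v (downA O q Ψ) DA)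
    (hDB : IsPartMat (diaOp O Ψ hΨ) v' v (downB O hΨ hq hqN) DB)
    (ht' : IsPartMat (diaOp O Ψ hΨ) v v (tEnd O hΨ hneg hq hqN) t) :
    Matrix.fromRows DA DB * Matrix.fromCols MA MB =
      Matrix.fromBlocks (Matrix.scalar (Fin d) ((q : Sd) + 1)) t t
        (Matrix.scalar (Fin d) ((q : Sd) + 1)) := by
  have heρ := partIdem_diaOp Ψ hΨ hneg 𝓟 a
  have hs : ∀ {F : Module.End O (clHoms O (GammaPsi Ψ) O)} (M : Matrix (Fin d) (Fin d) Sd),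
      IsPartMat (diaOp O Ψ hΨ) v v F M → (∀ j, F (v j) = (q + 1) • v j) →
      M = Matrix.scalar (Fin d) ((q : Sd) + 1) := fun {F} M hM hF => by
    have h0 := isPartMat_smul_id (ρ := diaOp O Ψ hΨ) (v := v) ((q + 1 : ℕ) : DiaRing O p lv)
      (F := F) fun j => by rw [hF j, map_natCast, Module.End.natCast_apply]
    rw [map_natCast, Nat.cast_succ] at h0
    exact hM.eq_of hv heρ h0 fun _ => rfl
  rw [Matrix.fromRows_mul_fromCols]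
  rw [hs _ (hMA.comp hDA (downA_diaOp hΨ hΨ')) fun j => downA_upA hΨ hq hqN (v j),
    hs _ (hMB.comp hDB (downB_diaOp hΨ hq hqN hΨ')) fun j => downB_upB hΨ hq hqN (v j),
    (hMB.comp hDA (downA_diaOp hΨ hΨ')).eq_of hv heρ ht'
      fun j => downA_upB hΨ hneg hq hqN hp2 (v j),
    (hMA.comp hDB (downB_diaOp hΨ hq hqN hΨ')).eq_of hv heρ ht'
      fun j => downB_upA hΨ hneg hq hqN (v j)]

omit [IsAdicComplete (maximalIdeal O) O] [IsAddTorsionFree O] [Fact (Nat.Prime p)]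
  [CharP (ResidueField O) p] in
/-- Residual matrices act as the augmented ones modulo the maximal ideal. -/
theorem mulVec_diaQuotRes {k l : ℕ} (M : Matrix (Fin k) (Fin l) Sd) (c : Fin l → O) (i : Fin k) :
    (M.map diaQuotRes).mulVec (fun j => residue O (c j)) i =
      residue O ((M.map diaQuotAug).mulVec c i) := by
  simp [Matrix.mulVec, dotProduct, diaQuotRes]

/-! ### One-sided inverses -/

section Inverse

variable [Finite (ResidueField O)]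
  (hker : ∀ g : Gamma0 N, |tr (g : SL(2, ℤ))| ≤ 2 → dChar Ψ g = 1)
  {ℓ₀ : Nat.Primes} (hℓ₀ : ℓ₀ ∈ 𝓟) (hℓ₀N : ¬ (ℓ₀ : ℕ) ∣ N)
  (hexp : ¬ ((ℓ₀ : ℕ) : ℤ) ∣ (q : ℤ) ^ (4 * N ^ 2) - 1)
  (h1 : a ℓ₀ ≠ ((ℓ₀ : ℕ) : ResidueField O) + 1) (h2 : a ℓ₀ ≠ -(((ℓ₀ : ℕ) : ResidueField O) + 1))

include hv hker hℓ₀ hℓ₀N hexp h1 h2 hq hqN hq𝓟 in
/-- **The pair of degeneracy matrices has a left inverse.** -/
theorem exists_leftInverse_up {MA MB : Matrix (Fin d') (Fin d) Sd}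
    (hMA : IsPartMat (diaOp O (liftPsi Ψ q) hΨ') v v' (upA O q Ψ) MA)
    (hMB : IsPartMat (diaOp O (liftPsi Ψ q) hΨ') v v' (upB O hΨ hq hqN) MB) :
    ∃ X : Matrix (Fin d ⊕ Fin d) (Fin d') Sd, X * Matrix.fromCols MA MB = 1 := by
  have hneg' := neg_one_mem_lift Ψ q hneg
  let b := fun j => coresCl (GammaPsi_le Ψ) O O (v j)
  let b' := fun i => coresCl (GammaPsi_le (liftPsi Ψ q)) O O (v' i)
  have hbase := cores_basis hΨ hneg 𝓟 a hv hker hℓ₀ hℓ₀N h1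
  have hfix : ∀ i, (baseIdem O N 𝓟 a).1 (b i) = b i := fun i =>
    cores_fixed 𝓟 a hΨ hneg (hv.1 i)
  refine exists_left_inverse_of_map_injective (diaQuotRes (O := O) (p := p) (lv := lv))
    diaQuotRes_surjective _ fun u hu => ?_
  choose c hc using fun j => residue_surjective (R := O) (u j)
  have hu' : ∀ i, residue O ((MA.map diaQuotAug).mulVec (c ∘ Sum.inl) i +
      (MB.map diaQuotAug).mulVec (c ∘ Sum.inr) i) = 0 := fun i => by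
    rw [map_add, ← mulVec_diaQuotRes, ← mulVec_diaQuotRes]
    have := congrFun hu i
    simp only [← funext hc, Matrix.mulVec, dotProduct, Fintype.sum_sum_type, Matrix.map_apply,
      Matrix.fromCols_apply_inl, Matrix.fromCols_apply_inr, Pi.zero_apply] at this
    simpa [Matrix.mulVec, dotProduct] using this
  have eA := map_coords (clDegA O N q) b b' (MA.map diaQuotAug)
    (fun j => (cores_upA hΨ' (v j)).symm.trans (hMA.aug _ (cores_diaOp hΨ' hneg') j)) (c ∘ Sum.inl)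
  have eB := map_coords (clDegB O N q) b b' (MB.map diaQuotAug)
    (fun j => (cores_upB hΨ hneg hq hqN hΨ' (v j)).symm.trans
      (hMB.aug _ (cores_diaOp hΨ' hneg') j)) (c ∘ Sum.inr)
  obtain ⟨h₁, h₂⟩ := degen_injective_mod 𝓟 a q hq hqN hℓ₀ hℓ₀N (hq𝓟 ⟨ℓ₀, hℓ₀⟩) hexp h1 h2
    (y₁ := ∑ j, c (Sum.inl j) • b j) (y₂ := ∑ j, c (Sum.inr j) • b j)
    (by simp only [map_sum, map_smul, hfix]) (by simp only [map_sum, map_smul, hfix]) (by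
      refine (congrArg redCl (congrArg₂ (· + ·) eA eB)).trans ?_
      rw [← Finset.sum_add_distrib, map_sum]
      exact Finset.sum_eq_zero fun i _ => by rw [← add_smul, clMap_smul, hu' i, zero_smul])
  funext j
  rw [Pi.zero_apply, ← hc j]
  rcases j with j | j
  · exact residue_coeff_eq_zero hfix hbase h₁ j
  · exact residue_coeff_eq_zero hfix hbase h₂ j

include hv hv' hker hℓ₀ hℓ₀N hexp h1 h2 hq hqN hq𝓟 in
/-- **The pair of transfer matrices has a right inverse.** -/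
theorem exists_rightInverse_down {DA DB : Matrix (Fin d) (Fin d') Sd}
    (hDA : IsPartMat (diaOp O Ψ hΨ) v' v (downA O q Ψ) DA)
    (hDB : IsPartMat (diaOp O Ψ hΨ) v' v (downB O hΨ hq hqN) DB) :
    ∃ X : Matrix (Fin d') (Fin d ⊕ Fin d) Sd, Matrix.fromRows DA DB * X = 1 := by
  have hℓ₀Nq : ¬ (ℓ₀ : ℕ) ∣ N * q := fun h => (ℓ₀.2.dvd_mul.mp h).elim hℓ₀N fun h' =>
    hq𝓟 ⟨ℓ₀, hℓ₀⟩ ((Nat.prime_dvd_prime_iff_eq ℓ₀.2 hq).mp h')
  let b := fun j => coresCl (GammaPsi_le Ψ) O O (v j)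
  let b' := fun i => coresCl (GammaPsi_le (liftPsi Ψ q)) O O (v' i)
  have hbase := cores_basis hΨ hneg 𝓟 a hv hker hℓ₀ hℓ₀N h1
  have hbase' := cores_basis hΨ' hneg' 𝓟 a hv' (lift_kills_small_trace Ψ q hker) hℓ₀ hℓ₀Nq h1
  have hfix : ∀ i, (baseIdem O N 𝓟 a).1 (b i) = b i := fun i =>
    cores_fixed 𝓟 a hΨ hneg (hv.1 i)
  refine exists_right_inverse_of_map_surjective (diaQuotRes (O := O) (p := p) (lv := lv))
    diaQuotRes_surjective _ fun u => ?_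
  choose c hc using fun j => residue_surjective (R := O) (u j)
  obtain ⟨χ, hχ, hA, hB⟩ := degen_surjective_mod 𝓟 a q hq hqN hℓ₀ hℓ₀N (hq𝓟 ⟨ℓ₀, hℓ₀⟩) hexp h1 h2
    hq𝓟 (y₁ := ∑ j, c (Sum.inl j) • b j) (y₂ := ∑ j, c (Sum.inr j) • b j)
    (by simp only [map_sum, map_smul, hfix]) (by simp only [map_sum, map_smul, hfix])
  obtain ⟨e, rfl, -⟩ := hbase' χ hχ
  refine ⟨fun j => residue O (e j), funext fun i => ?_⟩
  rw [map_coords (clCorA O N q) b' b (DA.map diaQuotAug)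
    (fun j => (cores_downA hΨ (v' j)).symm.trans (hDA.aug _ (cores_diaOp hΨ hneg) j)) e] at hA
  rw [map_coords (clCorB O N q) b' b (DB.map diaQuotAug)
    (fun j => (cores_downB hΨ hneg hq hqN (v' j)).symm.trans
      (hDB.aug _ (cores_diaOp hΨ hneg) j)) e] at hB
  rw [← hc i]
  rcases i with i | i
  · have := residue_coeff_eq hfix hbase hA i
    rw [← mulVec_diaQuotRes] at this
    simpa [Matrix.mulVec, dotProduct] using this
  · have := residue_coeff_eq hfix hbase hB i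
    rw [← mulVec_diaQuotRes] at this
    simpa [Matrix.mulVec, dotProduct] using this

end Inverse

include hΨ hneg hΨ' hneg' hq hqN hq𝓟 hv hv' in
/-- **The degeneracy matrices at a Taylor–Wiles level.** -/
theorem exists_degenMat [Finite (ResidueField O)] (hp2 : p ≠ 2)
    (hker : ∀ g : Gamma0 N, |tr (g : SL(2, ℤ))| ≤ 2 → dChar Ψ g = 1)
    {ℓ₀ : Nat.Primes} (hℓ₀ : ℓ₀ ∈ 𝓟) (hℓ₀N : ¬ (ℓ₀ : ℕ) ∣ N)
    (hexp : ¬ ((ℓ₀ : ℕ) : ℤ) ∣ (q : ℤ) ^ (4 * N ^ 2) - 1)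
    (h1 : a ℓ₀ ≠ ((ℓ₀ : ℕ) : ResidueField O) + 1) (h2 : a ℓ₀ ≠ -(((ℓ₀ : ℕ) : ResidueField O) + 1))
    (act : levelAlg O Ψ hΨ hneg 𝓟 → Matrix (Fin d) (Fin d) Sd)
    (hact : ∀ x, IsPartMat (diaOp O Ψ hΨ) v v x.1.1 (act x))
    (act' : levelAlg O (liftPsi Ψ q) hΨ' hneg' 𝓟 → Matrix (Fin d') (Fin d') Sd)
    (hact' : ∀ x, IsPartMat (diaOp O (liftPsi Ψ q) hΨ') v' v' x.1.1 (act' x)) :
    ∃ (MA MB : Matrix (Fin d') (Fin d) Sd) (DA DB : Matrix (Fin d) (Fin d') Sd)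
      (t : Matrix (Fin d) (Fin d) Sd),
      (IsPartMat (diaOp O (liftPsi Ψ q) hΨ') v v' (upA O q Ψ) MA ∧
        IsPartMat (diaOp O (liftPsi Ψ q) hΨ') v v' (upB O hΨ hq hqN) MB ∧
        IsPartMat (diaOp O Ψ hΨ) v' v (downA O q Ψ) DA ∧
        IsPartMat (diaOp O Ψ hΨ) v' v (downB O hΨ hq hqN) DB ∧
        IsPartMat (diaOp O Ψ hΨ) v v (tEnd O hΨ hneg hq hqN) t) ∧
      (∀ x x', LevelPartner O hΨ hneg 𝓟 hΨ' hneg' x x' →
        Matrix.fromCols MA MB * Matrix.fromBlocks (act x) 0 0 (act x) =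
            act' x' * Matrix.fromCols MA MB ∧
          Matrix.fromRows DA DB * act' x' =
            Matrix.fromBlocks (act x) 0 0 (act x) * Matrix.fromRows DA DB) ∧
      (∃ X : Matrix (Fin d ⊕ Fin d) (Fin d') Sd, X * Matrix.fromCols MA MB = 1) ∧
      (∃ X : Matrix (Fin d') (Fin d ⊕ Fin d) Sd, Matrix.fromRows DA DB * X = 1) ∧
      Matrix.fromRows DA DB * Matrix.fromCols MA MB =
        Matrix.fromBlocks (Matrix.scalar (Fin d) ((q : Sd) + 1)) t t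
          (Matrix.scalar (Fin d) ((q : Sd) + 1)) := by
  have hI := levelPartner_levelIdem hΨ hneg 𝓟 a hΨ' hneg'
  have hfA : ∀ j, partIdem (liftPsi Ψ q) hΨ' hneg' 𝓟 a (upA O q Ψ (v j)) = upA O q Ψ (v j) :=
    fun j => by rw [upA_intertwine hΨ hneg 𝓟 hq hΨ' hneg' hq𝓟 hI, hv.1]
  have hfB : ∀ j, partIdem (liftPsi Ψ q) hΨ' hneg' 𝓟 a (upB O hΨ hq hqN (v j)) =
      upB O hΨ hq hqN (v j) :=
    fun j => by rw [upB_intertwine hΨ hneg 𝓟 hq hqN hΨ' hneg' hq𝓟 hI, hv.1]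
  have hgA : ∀ j, partIdem Ψ hΨ hneg 𝓟 a (downA O q Ψ (v' j)) = downA O q Ψ (v' j) :=
    fun j => by rw [downA_intertwine hΨ hneg 𝓟 hq hΨ' hneg' hq𝓟 hI, hv'.1]
  have hgB : ∀ j, partIdem Ψ hΨ hneg 𝓟 a (downB O hΨ hq hqN (v' j)) =
      downB O hΨ hq hqN (v' j) :=
    fun j => by rw [downB_intertwine hΨ hneg 𝓟 hq hqN hΨ' hneg' hq𝓟 hI, hv'.1]
  obtain ⟨MA, hMA⟩ := exists_isPartMat (F := upA O q Ψ) hv' hfA
  obtain ⟨MB, hMB⟩ := exists_isPartMat (F := upB O hΨ hq hqN) hv' hfB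
  obtain ⟨DA, hDA⟩ := exists_isPartMat (F := downA O q Ψ) hv hgA
  obtain ⟨DB, hDB⟩ := exists_isPartMat (F := downB O hΨ hq hqN) hv hgB
  have ht : ∀ j, partIdem Ψ hΨ hneg 𝓟 a (tEnd O hΨ hneg hq hqN (v j)) =
      tEnd O hΨ hneg hq hqN (v j) := fun j => by
    rw [← downB_upA hΨ hneg hq hqN, downB_intertwine hΨ hneg 𝓟 hq hqN hΨ' hneg' hq𝓟 hI, hfA j]
  obtain ⟨t, ht'⟩ := exists_isPartMat (F := tEnd O hΨ hneg hq hqN) hv ht
  exact ⟨MA, MB, DA, DB, t, ⟨hMA, hMB, hDA, hDB, ht'⟩, fun x x' h =>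
    degenMat_intertwine hΨ hneg 𝓟 a hq hqN hΨ' hneg' hq𝓟 hv hv' hMA hMB hDA hDB act hact act'
      hact' h,
    exists_leftInverse_up hΨ hneg 𝓟 a hq hqN hΨ' hq𝓟 hv hker hℓ₀ hℓ₀N hexp h1 h2 hMA hMB,
    exists_rightInverse_down hΨ hneg 𝓟 a hq hqN hΨ' hneg' hq𝓟 hv hv' hker hℓ₀ hℓ₀N hexp h1 h2
      hDA hDB,
    degenMat_comp hΨ hneg 𝓟 a hq hqN hΨ' hv hp2 hMA hMB hDA hDB ht'⟩

end Fermat.Agent.Raising.Degen
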