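import Mathlib.Data.Matrix.ColumnRowPartitioned
import Mathlib.LinearAlgebra.Matrix.NonsingularInverse
import Fermat.Agent.LevelLowering.TWHecke
import Fermat.Agent.Raising.Diamonds

/-!
# Maps between free parts in coordinates

An `O`-linear map commuting with the diamonds between parts free over `O[Δ]` has a matrix over
`O⟦X⟧ / J`; its augmentation is the matrix on the quotients by the diamonds, and it has a one-sided
inverse as soon as its residual matrix has one.
-/

noncomputable section

namespace Fermat.Agent.Raising.Degen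

open IsLocalRing Fermat.Agent.LevelLowering

section LocalInverse

variable {S k : Type} [CommRing S] [IsLocalRing S] [Field k] (f : S →+* k)
  (hf : Function.Surjective f) {κ ι : Type} [Fintype κ] [Fintype ι] (M : Matrix κ ι S)

include hf in
/-- A matrix over a local ring that is injective over the residue field has a left inverse. -/
theorem exists_left_inverse_of_map_injective [DecidableEq ι]
    (h : ∀ u : ι → k, (M.map f).mulVec u = 0 → u = 0) : ∃ X : Matrix ι κ S, X * M = 1 := by
  classical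
  obtain ⟨L, hL⟩ := (Matrix.mulVecLin (M.map f)).exists_leftInverse_of_injective
    (LinearMap.ker_eq_bot'.mpr h)
  have hLM : LinearMap.toMatrix' L * M.map f = 1 := by
    rw [← LinearMap.toMatrix'_id, ← hL, LinearMap.toMatrix'_comp]
    exact congrArg _ (LinearMap.toMatrix'_toLin' (M.map f)).symm
  have := IsLocalHom.of_surjective f hf
  exact exists_leftInverse_of_map f hf (fun x => isUnit_of_map_unit f x) M
    ⟨LinearMap.toMatrix' L, hLM⟩

include hf in
/-- A matrix over a local ring that is surjective over the residue field has a right inverse. -/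
theorem exists_right_inverse_of_map_surjective [DecidableEq κ]
    (h : Function.Surjective (M.map f).mulVec) : ∃ X : Matrix ι κ S, M * X = 1 := by
  classical
  obtain ⟨L, hL⟩ := Matrix.mulVec_surjective_iff_exists_right_inverse.mp h
  have := IsLocalHom.of_surjective f hf
  exact exists_rightInverse_of_map f hf (fun x => isUnit_of_map_unit f x) M ⟨L, hL⟩

end LocalInverse

variable {O : Type} [CommRing O] {p r : ℕ} [Fact p.Prime] {lv : Fin r → ℕ}

local notation "Sd" => MvPowerSeries (Fin r) O ⧸ diamondIdeal (𝒪 := O) p lv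

/-- The diamond ring is the diamond quotient. -/
theorem toDiaQuot_bijective [IsDomain O] [IsDiscreteValuationRing O]
    [IsAdicComplete (maximalIdeal O) O] [Finite (ResidueField O)] (hp𝒪 : (p : O) ∈ maximalIdeal O) :
    Function.Bijective (toDiaQuot (𝒪 := O) (p := p) (lv := lv)) := by
  obtain ⟨E, hE⟩ := exists_diaEquiv (lv := lv) hp𝒪
  have : (toDiaQuot (𝒪 := O) (p := p) (lv := lv)) = E.symm.toAlgHom :=
    (MonoidAlgebra.lift O _ _).symm.injective (diaHom_ext fun i => by
      show toDiaQuot (MonoidAlgebra.of O _ (diaGen p lv i)) = E.symm (MonoidAlgebra.of O _ _)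
      rw [toDiaQuot_gen, eq_comm, AlgEquiv.symm_apply_eq, map_add, map_one, hE, add_sub_cancel])
  rw [this]
  exact E.symm.bijective

/-- The residual value on the diamond quotient. -/
def diaQuotRes [IsLocalRing O] : Sd →+* ResidueField O := (residue O).comp diaQuotAug

/-- The residual value is surjective. -/
theorem diaQuotRes_surjective [IsLocalRing O] :
    Function.Surjective (diaQuotRes (O := O) (p := p) (lv := lv)) := fun z => by
  obtain ⟨c, rfl⟩ := residue_surjective z
  refine ⟨toDiaQuot (algebraMap O (DiaRing O p lv) c), ?_⟩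
  rw [diaQuotRes, RingHom.comp_apply, diaQuotAug_toDiaQuot, AlgHom.commutes]
  rfl

variable {V V' V'' : Type*} [AddCommGroup V] [Module O V] [AddCommGroup V'] [Module O V']
  [AddCommGroup V''] [Module O V''] (ρ : DiaGroup p lv →* Module.End O V)
  (ρ' : DiaGroup p lv →* Module.End O V') (ρ'' : DiaGroup p lv →* Module.End O V'')
  {d d' d'' : ℕ}

/-- `M` is the matrix of `F` on the families `v`, `v'`. -/
def IsPartMat (v : Fin d → V) (v' : Fin d' → V') (F : V →ₗ[O] V')
    (M : Matrix (Fin d') (Fin d) Sd) : Prop :=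
  ∀ j, ∃ c : Fin d' → DiaRing O p lv,
    (∀ i, toDiaQuot (c i) = M i j) ∧ F (v j) = ∑ i, algAct ρ' (c i) (v' i)

/-- `v` is free over the group algebra and spans the part of `e`. -/
def IsFreePart (e : Module.End O V) (v : Fin d → V) : Prop :=
  (∀ i, e (v i) = v i) ∧
    ∀ w, e w = w → ∃! c : Fin d → DiaGroup p lv → O, ∑ i, ∑ g, c i g • ρ g (v i) = w

variable {ρ ρ' ρ''} {v : Fin d → V} {v' : Fin d' → V'} {v'' : Fin d'' → V''}

/-- An element of the part has coordinates over the diamond ring. -/
theorem IsFreePart.exists_coord {e : Module.End O V} (h : IsFreePart ρ e v) {w : V} (hw : e w = w) :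
    ∃ c : Fin d → DiaRing O p lv, w = ∑ i, algAct ρ (c i) (v i) := by
  obtain ⟨c, hc, -⟩ := h.2 w hw
  refine ⟨fun i => .ofCoeff (Finsupp.equivFunOnFinite.symm (c i)), ?_⟩
  rw [← hc]
  simp [algAct_apply]

/-- Coordinates over the diamond ring are unique. -/
theorem IsFreePart.coord_unique {e : Module.End O V} (h : IsFreePart ρ e v)
    (heρ : ∀ g w, e (ρ g w) = ρ g (e w)) {x y : Fin d → DiaRing O p lv}
    (hxy : ∑ i, algAct ρ (x i) (v i) = ∑ i, algAct ρ (y i) (v i)) : x = y := by
  have hfix : e (∑ i, algAct ρ (x i) (v i)) = ∑ i, algAct ρ (x i) (v i) := by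
    simp only [algAct_apply, map_sum, map_smul, heρ, h.1]
  obtain ⟨c, -, hc⟩ := h.2 _ hfix
  have h1 := hc (fun i g => (x i).coeff g) (by simp [algAct_apply])
  have h2 := hc (fun i g => (y i).coeff g) (by simp only [← algAct_apply]; exact hxy.symm)
  funext i
  exact MonoidAlgebra.coeff_injective
    (Finsupp.ext fun g => congrFun (congrFun (h1.trans h2.symm) i) g)

/-- A map into a free part has a matrix. -/
theorem exists_isPartMat {e' : Module.End O V'} (h' : IsFreePart ρ' e' v') {F : V →ₗ[O] V'}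
    (hF : ∀ j, e' (F (v j)) = F (v j)) : ∃ M, IsPartMat ρ' v v' F M := by
  choose c hc using fun j => h'.exists_coord (hF j)
  exact ⟨fun i j => toDiaQuot (c j i), fun j => ⟨c j, fun _ => rfl, hc j⟩⟩

/-- The matrix of a map is unique. -/
theorem IsPartMat.eq_of {e' : Module.End O V'}
    (h' : IsFreePart ρ' e' v') (heρ' : ∀ g w, e' (ρ' g w) = ρ' g (e' w)) {F F' : V →ₗ[O] V'}
    {M M' : Matrix (Fin d') (Fin d) Sd} (hM : IsPartMat ρ' v v' F M)
    (hM' : IsPartMat ρ' v v' F' M') (hFF : ∀ j, F (v j) = F' (v j)) : M = M' := by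
  ext i j
  obtain ⟨c, hc, hcF⟩ := hM j
  obtain ⟨c', hc', hcF'⟩ := hM' j
  rw [← hc i, ← hc' i, h'.coord_unique heρ' ((hcF.symm.trans (hFF j)).trans hcF')]

/-- A map commuting with the diamonds commutes with the diamond ring. -/
theorem algAct_commute {F : V →ₗ[O] V'} (hF : ∀ g w, F (ρ g w) = ρ' g (F w))
    (x : DiaRing O p lv) (w : V) : F (algAct ρ x w) = algAct ρ' x (F w) := by
  simp only [algAct_apply, map_sum, map_smul, hF]

/-- Matrices multiply under composition. -/
theorem IsPartMat.comp {F : V →ₗ[O] V'} {G : V' →ₗ[O] V''} {M : Matrix (Fin d') (Fin d) Sd}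
    {M' : Matrix (Fin d'') (Fin d') Sd} (hM : IsPartMat ρ' v v' F M)
    (hM' : IsPartMat ρ'' v' v'' G M') (hG : ∀ g w, G (ρ' g w) = ρ'' g (G w)) :
    IsPartMat ρ'' v v'' (G ∘ₗ F) (M' * M) := by
  intro j
  obtain ⟨c, hc, hcF⟩ := hM j
  choose c' hc' hcG using hM'
  refine ⟨fun i => ∑ k, c' k i * c k, fun i => ?_, ?_⟩
  · rw [map_sum, Matrix.mul_apply]
    exact Finset.sum_congr rfl fun k _ => by rw [map_mul, hc, hc']
  · rw [LinearMap.comp_apply, hcF, map_sum]
    simp only [map_sum, LinearMap.sum_apply]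
    rw [Finset.sum_comm]
    refine Finset.sum_congr rfl fun k _ => ?_
    rw [algAct_commute hG, hcG k, map_sum]
    exact Finset.sum_congr rfl fun i _ => by rw [← Module.End.mul_apply, ← map_mul, mul_comm]

/-- A map acting as an element of the diamond ring has a scalar matrix. -/
theorem isPartMat_smul_id (x : DiaRing O p lv) {F : V →ₗ[O] V}
    (hF : ∀ j, F (v j) = algAct ρ x (v j)) :
    IsPartMat ρ v v F (Matrix.scalar (Fin d) (toDiaQuot x)) := fun j =>
  ⟨fun i => if i = j then x else 0, fun i => by by_cases h : i = j <;> simp [h], by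
    rw [hF j, Finset.sum_eq_single j] <;> simp +contextual⟩

/-- The identity has the identity matrix. -/
theorem isPartMat_id : IsPartMat ρ v v LinearMap.id (1 : Matrix (Fin d) (Fin d) Sd) := by
  have h := isPartMat_smul_id (ρ := ρ) (v := v) (1 : DiaRing O p lv) (F := LinearMap.id)
    fun j => by simp
  rwa [map_one, map_one] at h

/-- After a map killing the diamonds, the matrix acts through its augmentation. -/
theorem IsPartMat.aug {F : V →ₗ[O] V'} {M : Matrix (Fin d') (Fin d) Sd}
    (hM : IsPartMat ρ' v v' F M) {W : Type*} [AddCommGroup W] [Module O W] (π : V' →ₗ[O] W)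
    (hπ : ∀ g w, π (ρ' g w) = π w) (j : Fin d) :
    π (F (v j)) = ∑ i, diaQuotAug (M i j) • π (v' i) := by
  obtain ⟨c, hc, hcF⟩ := hM j
  rw [hcF, map_sum]
  refine Finset.sum_congr rfl fun i _ => ?_
  rw [← hc i, diaQuotAug_toDiaQuot, algAct_apply, map_sum, diaAug, MonoidAlgebra.lift_apply,
    Finsupp.sum_fintype _ _ (by simp), Finset.sum_smul]
  simp [hπ]

/-- A linear map between two families through a matrix. -/
theorem map_coords {R W W' : Type*} [CommRing R] [AddCommGroup W] [Module R W] [AddCommGroup W']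
    [Module R W'] {k l : ℕ} (F : W →ₗ[R] W') (b : Fin l → W) (b' : Fin k → W')
    (A : Matrix (Fin k) (Fin l) R) (h : ∀ j, F (b j) = ∑ i, A i j • b' i) (c : Fin l → R) :
    F (∑ j, c j • b j) = ∑ i, A.mulVec c i • b' i := by
  simp only [map_sum, map_smul, h, Finset.smul_sum, smul_smul, Matrix.mulVec, dotProduct,
    Finset.sum_smul]
  rw [Finset.sum_comm]
  simp only [mul_comm]

/-- A free part maps to a basis of the quotient as soon as one does. -/
theorem IsFreePart.base_transfer {e : Module.End O V}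
    (heρ : ∀ g w, e (ρ g w) = ρ g (e w)) {V₀ : Type*} [AddCommGroup V₀] [Module O V₀]
    (e₀ : Module.End O V₀) (π : V →ₗ[O] V₀) (hπ : ∀ g w, π (ρ g w) = π w) {d₀ : ℕ}
    {v₀ : Fin d₀ → V} (h₀ : IsFreePart ρ e v₀)
    (hbase : ∀ x, e₀ x = x → ∃! b : Fin d₀ → O, ∑ i, b i • π (v₀ i) = x)
    (h : IsFreePart ρ e v) (x : V₀) (hx : e₀ x = x) :
    ∃! b : Fin d → O, ∑ i, b i • π (v i) = x := by
  obtain ⟨M, hM⟩ := exists_isPartMat (v := v) (F := LinearMap.id) h₀ h.1
  obtain ⟨M', hM'⟩ := exists_isPartMat (v := v₀) (F := LinearMap.id) h h₀.1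
  have hMM : M' * M = 1 :=
    (hM.comp hM' fun _ _ => rfl).eq_of h heρ isPartMat_id fun _ => rfl
  let A : Matrix (Fin d₀) (Fin d) O := M.map diaQuotAug
  let A' : Matrix (Fin d) (Fin d₀) O := M'.map diaQuotAug
  have hAA : A' * A = 1 := by
    have := congrArg (fun X : Matrix (Fin d) (Fin d) Sd => X.map diaQuotAug) hMM
    simpa [A, A', Matrix.map_mul] using this
  have hs : ∀ b : Fin d → O, ∑ j, b j • π (v j) = ∑ i, A.mulVec b i • π (v₀ i) :=
    map_coords LinearMap.id _ _ A (hM.aug π hπ)
  have hs' : ∀ b : Fin d₀ → O, ∑ i, b i • π (v₀ i) = ∑ j, A'.mulVec b j • π (v j) :=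
    map_coords LinearMap.id _ _ A' (hM'.aug π hπ)
  obtain ⟨b₀, hb₀, hb₀u⟩ := hbase x hx
  refine ⟨A'.mulVec b₀, (hs' b₀).symm.trans hb₀, fun b hb => ?_⟩
  rw [← hb₀u (A.mulVec b) ((hs b).symm.trans hb), Matrix.mulVec_mulVec, hAA, Matrix.one_mulVec]

end Fermat.Agent.Raising.Degen
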