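import Mathlib.LinearAlgebra.Charpoly.ToMatrix
import Mathlib.LinearAlgebra.Determinant
import Mathlib.LinearAlgebra.Matrix.Adjugate
import Mathlib.LinearAlgebra.Matrix.Charpoly.Coeff
import Fermat.Agent.Raising.Degen.Coords

/-!
# Saturation in coordinates

Over an algebra finite free over a domain, an injective square matrix has regular determinant.  If
`U` has a left inverse and `D U` a regular determinant, a matrix intertwined with `U` that kills the
kernel of `D` is a multiple of `U`.
-/

noncomputable section

namespace Fermat.Agent.Raising.Degen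

open IsLocalRing Polynomial Fermat.Agent.LevelLowering

section Generic

variable (R : Type*) {S : Type*} [CommRing R] [IsDomain R] [CommRing S] [Algebra R S]
  [Module.Free R S]
  [Module.Finite R S] {n : Type*} [Fintype n] [DecidableEq n]

include R in
/-- **An injective matrix over a finite free algebra has regular determinant.** -/
theorem det_regular_of_injective (T : Matrix n n S) (h : ∀ u, T.mulVec u = 0 → u = 0) (s : S)
    (hs : s * T.det = 0) : s = 0 := by
  classical
  let φ : Matrix n n S →ₐ[R] Module.End R (n → S) :=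
    { toFun := fun A => A.mulVecLin.restrictScalars R
      map_one' := LinearMap.ext fun u => Matrix.one_mulVec u
      map_mul' := fun A B => LinearMap.ext fun u => (Matrix.mulVec_mulVec u A B).symm
      map_zero' := LinearMap.ext fun u => Matrix.zero_mulVec u
      map_add' := fun A B => LinearMap.ext fun u => Matrix.add_mulVec A B u
      commutes' := fun c => LinearMap.ext fun u => funext fun i => by
        show (algebraMap R (Matrix n n S) c).mulVec u i = c • u i
        rw [Matrix.algebraMap_eq_diagonal, Matrix.mulVec_diagonal, Algebra.smul_def]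
        rfl }
  have hφ : Function.Injective φ := fun A B hAB => Matrix.ext fun i j => by
    have := congrFun (LinearMap.congr_fun hAB (Pi.single j 1)) i
    simpa [φ, Matrix.mulVec_single_one] using this
  let b := Module.Free.chooseBasis R (n → S)
  let Mx := LinearMap.toMatrix b b (φ T)
  have hc : Mx.charpoly.coeff 0 ≠ 0 := fun h0 => by
    have hdet : LinearMap.det (φ T) = 0 := by
      rw [← LinearMap.det_toMatrix b, Matrix.det_eq_sign_charpoly_coeff, h0, mul_zero]
    refine (LinearMap.det_eq_zero_iff_ker_ne_bot.mp hdet) (LinearMap.ker_eq_bot'.mpr h)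
  have hCH : aeval (φ T) Mx.charpoly = 0 := by
    show aeval (φ T) (LinearMap.toMatrix b b (φ T)).charpoly = 0
    rw [LinearMap.charpoly_toMatrix, LinearMap.aeval_self_charpoly]
  rw [Polynomial.aeval_algHom_apply] at hCH
  have hT : T * aeval T Mx.charpoly.divX = algebraMap R (Matrix n n S) (-Mx.charpoly.coeff 0) := by
    have h0 := hφ (hCH.trans (map_zero φ).symm)
    rw [← Polynomial.X_mul_divX_add Mx.charpoly, map_add, map_mul, aeval_X, aeval_C] at h0
    rw [map_neg]
    exact eq_neg_of_add_eq_zero_left h0
  have h1 := congrArg Matrix.det hT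
  rw [Matrix.det_mul, Matrix.algebraMap_eq_diagonal, Matrix.det_diagonal] at h1
  have h2 : (-Mx.charpoly.coeff 0) ^ Fintype.card n • s = 0 := by
    rw [Algebra.smul_def, mul_comm, map_pow]
    simp only [Pi.algebraMap_apply, Finset.prod_const, Finset.card_univ] at h1
    rw [← h1, ← mul_assoc, hs, zero_mul]
  exact (smul_eq_zero.mp h2).resolve_left (pow_ne_zero _ (neg_ne_zero.mpr hc))

/-- **Factorisation through `U`**: a matrix intertwined with `U` and killing the kernel of `D` is a
multiple of `U`, when `D U` has regular determinant. -/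
theorem exists_factor_of_kills {S : Type*} [CommRing S] {κ ι : Type*} [Fintype κ] [DecidableEq κ]
    [Fintype ι] [DecidableEq ι] (U : Matrix κ ι S) (D : Matrix ι κ S) (L : Matrix ι κ S)
    (hL : L * U = 1) (X' : Matrix κ κ S) (B : Matrix ι ι S) (hX : X' * U = U * B)
    (hreg : ∀ s, s * (D * U).det = 0 → s = 0) (hkill : ∀ u, D.mulVec u = 0 → X'.mulVec u = 0) :
    ∃ X : Matrix ι κ S, X' = U * X := by
  set δ := (D * U).det with hδ
  set C : Matrix κ κ S := δ • 1 - U * (D * U).adjugate * D with hC
  have hDC : D * C = 0 := by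
    rw [hC, Matrix.mul_sub, Matrix.mul_smul, Matrix.mul_one, ← Matrix.mul_assoc, ← Matrix.mul_assoc,
      Matrix.mul_adjugate, Matrix.smul_mul, Matrix.one_mul, sub_self]
  have hXC : X' * C = 0 := Matrix.ext fun i j => by
    have := congrFun (hkill (fun k => C k j) (funext fun l => congrFun (congrFun hDC l) j)) i
    exact this
  rw [hC, Matrix.mul_sub, Matrix.mul_smul, Matrix.mul_one, ← Matrix.mul_assoc, ← Matrix.mul_assoc,
    hX, sub_eq_zero] at hXC
  refine ⟨L * X', Matrix.ext fun i j => sub_eq_zero.mp (hreg _ ?_)⟩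
  have h1 : δ • (X' - U * (L * X')) = 0 := by
    rw [smul_sub, ← Matrix.mul_smul, ← Matrix.mul_smul, hXC, sub_eq_zero]
    simp only [← Matrix.mul_assoc]
    rw [Matrix.mul_assoc U L U, hL, Matrix.mul_one]
  have := congrFun (congrFun h1 i) j
  rwa [Matrix.smul_apply, smul_eq_mul, mul_comm] at this

end Generic

section Diamond

variable {O : Type} [CommRing O] [IsDomain O] [IsDiscreteValuationRing O]
  [IsAdicComplete (maximalIdeal O) O] [Finite (ResidueField O)]
  {p r : ℕ} [Fact p.Prime] {lv : Fin r → ℕ}

local notation "Sd" => MvPowerSeries (Fin r) O ⧸ diamondIdeal (𝒪 := O) p lv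

/-- The diamond quotient is finite free over `O`. -/
theorem free_diaQuot (hp𝒪 : (p : O) ∈ maximalIdeal O) :
    Module.Free O Sd ∧ Module.Finite O Sd := by
  let e : DiaRing O p lv ≃ₗ[O] Sd :=
    (AlgEquiv.ofBijective _ (toDiaQuot_bijective (lv := lv) hp𝒪)).toLinearEquiv
  let c : DiaRing O p lv ≃ₗ[O] (DiaGroup p lv →₀ O) := MonoidAlgebra.coeffLinearEquiv O
  have : Module.Free O (DiaRing O p lv) := Module.Free.of_equiv c.symm
  have : Module.Finite O (DiaRing O p lv) := Module.Finite.equiv c.symm
  exact ⟨Module.Free.of_equiv e, Module.Finite.equiv e⟩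

variable {V V' : Type*} [AddCommGroup V] [Module O V] [AddCommGroup V'] [Module O V']
  (ρ : DiaGroup p lv →* Module.End O V) (ρ' : DiaGroup p lv →* Module.End O V') {d d' : ℕ}
  {v : Fin d → V} {v' : Fin d' → V'}

/-- A map applied to a combination is the combination given by its matrix. -/
theorem IsPartMat.apply (hp𝒪 : (p : O) ∈ maximalIdeal O) {F : V →ₗ[O] V'}
    {M : Matrix (Fin d') (Fin d) Sd} (hM : IsPartMat ρ' v v' F M)
    (hF : ∀ g w, F (ρ g w) = ρ' g (F w)) (c : Fin d → DiaRing O p lv)
    (c' : Fin d' → DiaRing O p lv)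
    (h : M.mulVec (fun j => toDiaQuot (c j)) = fun i => toDiaQuot (c' i)) :
    F (∑ j, algAct ρ (c j) (v j)) = ∑ i, algAct ρ' (c' i) (v' i) := by
  choose m hm hmF using hM
  have hc : ∀ i, ∑ j, c j * m j i = c' i := fun i => (toDiaQuot_bijective hp𝒪).1 (by
    rw [← congrFun h i, map_sum, Matrix.mulVec, dotProduct]
    exact Finset.sum_congr rfl fun j _ => by rw [map_mul, hm, mul_comm])
  rw [map_sum]
  simp only [algAct_commute hF, hmF, map_sum]
  rw [Finset.sum_comm]
  refine Finset.sum_congr rfl fun i _ => ?_
  rw [← hc i, map_sum, LinearMap.sum_apply]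
  exact Finset.sum_congr rfl fun j _ => by rw [map_mul, Module.End.mul_apply]

end Diamond

end Fermat.Agent.Raising.Degen
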