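import Fermat.Agent.LevelLowering.TWPointsExist
import Fermat.Agent.Raising.Degen.Main
import Fermat.Agent.Raising.Degen.Regular

/-!
# What kills the new points is old

An element of the Hecke algebra at level `N q` killing every common eigenvector that is killed by
the two transfers factors, in coordinates, through the image of the degeneracy maps, provided
`T_q⟨q⟩^{1/2}` has no eigenvalue `±(q + 1)` at level `N`.
-/

noncomputable section

namespace Fermat.Agent.Raising.Degen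

open scoped MatrixGroups IsMulCommutative
open CongruenceSubgroup IsLocalRing Fermat.Agent.Grp Fermat.Agent.Ihara Fermat.Agent.LevelLowering

variable {O : Type} [CommRing O] [IsDomain O] [IsDiscreteValuationRing O]
  [IsAdicComplete (maximalIdeal O) O] [Finite (ResidueField O)]
  {p r : ℕ} [Fact p.Prime] {lv : Fin r → ℕ}

local notation "Sd" => MvPowerSeries (Fin r) O ⧸ diamondIdeal (𝒪 := O) p lv

section Coordinates

variable [IsAddTorsionFree O] {N : ℕ} [NeZero N] {Ψ : (ZMod N)ˣ →* DiaGroup p lv}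
  (hΨ : Function.Surjective Ψ)
  (hneg : (-1 : SL(2, ℤ)) ∈ GammaPsi Ψ) (𝓟 : Set Nat.Primes) (a : Nat.Primes → ResidueField O)
  {q : ℕ} [NeZero q] (hq : q.Prime) (hqN : ¬ q ∣ N) (hΨ' : Function.Surjective (liftPsi Ψ q))
  (hneg' : (-1 : SL(2, ℤ)) ∈ GammaPsi (liftPsi Ψ q))
  {d d' : ℕ} {v : Fin d → clHoms O (GammaPsi Ψ) O}
  {v' : Fin d' → clHoms O (GammaPsi (liftPsi Ψ q)) O}
  (hv : IsFreePart (diaOp O Ψ hΨ) (partIdem Ψ hΨ hneg 𝓟 a) v)
  (hv' : IsFreePart (diaOp O (liftPsi Ψ q) hΨ') (partIdem (liftPsi Ψ q) hΨ' hneg' 𝓟 a) v')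

omit [IsDomain O] [IsDiscreteValuationRing O] [IsAdicComplete (maximalIdeal O) O]
    [Finite (ResidueField O)] [Fact (Nat.Prime p)] [IsAddTorsionFree O] in
/-- Constants act on the diamond quotient by multiplication. -/
theorem smul_diaQuot (c : O) (x : Sd) : c • x = algebraMap O Sd c * x := by
  obtain ⟨y, rfl⟩ := Ideal.Quotient.mk_surjective x
  show Ideal.Quotient.mk _ (c • y) =
    Ideal.Quotient.mk _ (algebraMap O (MvPowerSeries (Fin r) O) c * y)
  rw [Algebra.smul_def]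

omit [IsAddTorsionFree O] in
/-- A matrix has no eigenvector for a value that the operator does not take on the part. -/
theorem eq_zero_of_mulVec_eq_smul (hp𝒪 : (p : O) ∈ maximalIdeal O)
    {V : Type} [AddCommGroup V] [Module O V] {ρ : DiaGroup p lv →* Module.End O V}
    {e : Module.End O V} {k : ℕ} {w : Fin k → V} (hw : IsFreePart ρ e w)
    (heρ : ∀ g x, e (ρ g x) = ρ g (e x)) {F : Module.End O V} {t : Matrix (Fin k) (Fin k) Sd}
    (ht : IsPartMat ρ w w F t) (hFρ : ∀ g x, F (ρ g x) = ρ g (F x)) (c : O)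
    (hne : ∀ x, e x = x → F x = c • x → x = 0) (u : Fin k → Sd)
    (h : t.mulVec u = c • u) : u = 0 := by
  choose z hz using fun j => (toDiaQuot_bijective (lv := lv) hp𝒪).2 (u j)
  have h' : t.mulVec (fun j => toDiaQuot (z j)) = fun i => toDiaQuot (c • z i) := by
    simp only [h, map_smul, hz]
    rfl
  have h1 := ht.apply ρ ρ hp𝒪 hFρ z _ h'
  have h2 := hne (∑ j, algAct ρ (z j) (w j))
    (by simp only [algAct_apply, map_sum, map_smul, heρ, hw.1]) (by
      rw [h1, Finset.smul_sum]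
      exact Finset.sum_congr rfl fun i _ => by rw [map_smul, LinearMap.smul_apply])
  have h3 := hw.coord_unique heρ (x := z) (y := 0) (by
    rw [h2]; simp)
  funext j
  rw [← hz j, h3]
  simp

omit [IsDomain O] [IsDiscreteValuationRing O] [IsAdicComplete (maximalIdeal O) O]
    [Finite (ResidueField O)] [IsAddTorsionFree O] in
/-- `T_q ⟨q⟩^{1/2}` commutes with the diamonds. -/
theorem tEnd_diaOp (g : DiaGroup p lv) (φ : clHoms O (GammaPsi Ψ) O) :
    tEnd O hΨ hneg hq hqN (diaOp O Ψ hΨ g φ) = diaOp O Ψ hΨ g (tEnd O hΨ hneg hq hqN φ) := by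
  show kerOp O Ψ hΨ hneg q (diaOp O Ψ hΨ _ (diaOp O Ψ hΨ g φ)) =
    diaOp O Ψ hΨ g (kerOp O Ψ hΨ hneg q (diaOp O Ψ hΨ _ φ))
  rw [diaOp_kerOp_apply, diaOp_mul_apply, diaOp_mul_apply, mul_comm _ g]

include hv in
/-- The matrix of `down ∘ up` is injective. -/
theorem degenDet_injective (hp𝒪 : (p : O) ∈ maximalIdeal O) {t : Matrix (Fin d) (Fin d) Sd}
    (ht : IsPartMat (diaOp O Ψ hΨ) v v (tEnd O hΨ hneg hq hqN) t)
    (hplus : ∀ w, partIdem Ψ hΨ hneg 𝓟 a w = w →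
      tEnd O hΨ hneg hq hqN w = ((q : O) + 1) • w → w = 0)
    (hminus : ∀ w, partIdem Ψ hΨ hneg 𝓟 a w = w →
      tEnd O hΨ hneg hq hqN w = (-((q : O) + 1)) • w → w = 0)
    (u : Fin d ⊕ Fin d → Sd)
    (hu : (Matrix.fromBlocks (Matrix.scalar (Fin d) ((q : Sd) + 1)) t t
      (Matrix.scalar (Fin d) ((q : Sd) + 1))).mulVec u = 0) : u = 0 := by
  have heρ := partIdem_diaOp Ψ hΨ hneg 𝓟 a
  have hA : ∀ x : Fin d → Sd, (Matrix.scalar (Fin d) ((q : Sd) + 1)).mulVec x = ((q : O) + 1) • x :=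
    fun x => funext fun i => by
      rw [Matrix.scalar_apply, Matrix.mulVec_diagonal, Pi.smul_apply]
      rw [smul_diaQuot, map_add, map_natCast, map_one]
  rw [Matrix.fromBlocks_mulVec] at hu
  have h1 : ((q : O) + 1) • (u ∘ Sum.inl) + t.mulVec (u ∘ Sum.inr) = 0 := by
    rw [← hA]; exact funext fun i => congrFun hu (Sum.inl i)
  have h2 : t.mulVec (u ∘ Sum.inl) + ((q : O) + 1) • (u ∘ Sum.inr) = 0 := by
    rw [← hA]; exact funext fun i => congrFun hu (Sum.inr i)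
  have hs : u ∘ Sum.inl + u ∘ Sum.inr = 0 :=
    eq_zero_of_mulVec_eq_smul hp𝒪 hv heρ ht (tEnd_diaOp hΨ hneg hq hqN) (-((q : O) + 1)) hminus _
      (by
      rw [Matrix.mulVec_add, eq_neg_of_add_eq_zero_left h2, eq_neg_of_add_eq_zero_right h1,
        neg_smul,
        smul_add]
      abel)
  have hd : u ∘ Sum.inl - u ∘ Sum.inr = 0 :=
    eq_zero_of_mulVec_eq_smul hp𝒪 hv heρ ht (tEnd_diaOp hΨ hneg hq hqN) ((q : O) + 1) hplus _ (by
      rw [Matrix.mulVec_sub, eq_neg_of_add_eq_zero_left h2, eq_neg_of_add_eq_zero_right h1,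
        smul_sub]
      abel)
  obtain ⟨hfree, -⟩ := free_diaQuot (lv := lv) hp𝒪
  have h2ne : (2 : O) ≠ 0 := fun h => one_ne_zero (α := O)
    ((nsmul_eq_zero_iff_right two_ne_zero).mp (by rw [nsmul_eq_mul, mul_one]; exact_mod_cast h))
  have hl : u ∘ Sum.inl = 0 := funext fun i => by
    have hsi := congrFun hs i
    have hdi := congrFun hd i
    simp only [Pi.add_apply, Pi.sub_apply, Pi.zero_apply] at hsi hdi
    refine (smul_eq_zero.mp (?_ : (2 : O) • (u ∘ Sum.inl) i = 0)).resolve_left h2ne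
    rw [smul_diaQuot, map_ofNat]
    linear_combination hsi + hdi
  have hr : u ∘ Sum.inr = 0 := by rwa [hl, zero_add] at hs
  funext i
  rcases i with i | i
  · exact congrFun hl i
  · exact congrFun hr i

include hv hv' in
/-- **Saturation.**  An operator killing the common kernel of the transfers is a multiple of
`up`. -/
theorem exists_up_factor_on (hp𝒪 : (p : O) ∈ maximalIdeal O)
    {MA MB : Matrix (Fin d') (Fin d) Sd} {DA DB : Matrix (Fin d) (Fin d') Sd}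
    {t : Matrix (Fin d) (Fin d) Sd}
    (hDA : IsPartMat (diaOp O Ψ hΨ) v' v (downA O q Ψ) DA)
    (hDB : IsPartMat (diaOp O Ψ hΨ) v' v (downB O hΨ hq hqN) DB)
    (ht : IsPartMat (diaOp O Ψ hΨ) v v (tEnd O hΨ hneg hq hqN) t)
    (hDU : Matrix.fromRows DA DB * Matrix.fromCols MA MB =
      Matrix.fromBlocks (Matrix.scalar (Fin d) ((q : Sd) + 1)) t t
        (Matrix.scalar (Fin d) ((q : Sd) + 1)))
    {L : Matrix (Fin d ⊕ Fin d) (Fin d') Sd} (hL : L * Matrix.fromCols MA MB = 1)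
    (hplus : ∀ w, partIdem Ψ hΨ hneg 𝓟 a w = w →
      tEnd O hΨ hneg hq hqN w = ((q : O) + 1) • w → w = 0)
    (hminus : ∀ w, partIdem Ψ hΨ hneg 𝓟 a w = w →
      tEnd O hΨ hneg hq hqN w = (-((q : O) + 1)) • w → w = 0)
    (F : Module.End O (clHoms O (GammaPsi (liftPsi Ψ q)) O))
    (hF : ∀ g w, F (diaOp O (liftPsi Ψ q) hΨ' g w) = diaOp O (liftPsi Ψ q) hΨ' g (F w))
    {Mx : Matrix (Fin d') (Fin d') Sd} (hMx : IsPartMat (diaOp O (liftPsi Ψ q) hΨ') v' v' F Mx)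
    {Bx : Matrix (Fin d) (Fin d) Sd}
    (hcomm : Matrix.fromCols MA MB * Matrix.fromBlocks Bx 0 0 Bx = Mx * Matrix.fromCols MA MB)
    (hkill : ∀ z, partIdem (liftPsi Ψ q) hΨ' hneg' 𝓟 a z = z → downA O q Ψ z = 0 →
      downB O hΨ hq hqN z = 0 → F z = 0) :
    ∃ X : Matrix (Fin d ⊕ Fin d) (Fin d') Sd, Mx = Matrix.fromCols MA MB * X := by
  classical
  obtain ⟨hfree, hfin⟩ := free_diaQuot (lv := lv) hp𝒪
  have heρ' := partIdem_diaOp (liftPsi Ψ q) hΨ' hneg' 𝓟 a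
  refine exists_factor_of_kills _ (Matrix.fromRows DA DB) L hL Mx (Matrix.fromBlocks Bx 0 0 Bx)
    hcomm.symm (fun s hs => ?_) fun u hu => ?_
  · rw [hDU] at hs
    exact det_regular_of_injective O _
      (degenDet_injective hΨ hneg 𝓟 a hq hqN hv hp𝒪 ht hplus hminus) s hs
  · choose c hc using fun j => (toDiaQuot_bijective (lv := lv) hp𝒪).2 (u j)
    rw [Matrix.fromRows_mulVec] at hu
    have hzero : ∀ {k : ℕ}, (fun i : Fin k => toDiaQuot ((0 : Fin k → DiaRing O p lv) i)) =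
        (0 : Fin k → Sd) := fun {k} => funext fun i => map_zero _
    have h1 : downA O q Ψ (∑ j, algAct (diaOp O (liftPsi Ψ q) hΨ') (c j) (v' j)) = 0 := by
      rw [hDA.apply _ _ hp𝒪 (downA_diaOp hΨ hΨ') c 0 (by
        rw [hzero, funext hc]; exact funext fun i => congrFun hu (Sum.inl i))]
      simp
    have h2 : downB O hΨ hq hqN (∑ j, algAct (diaOp O (liftPsi Ψ q) hΨ') (c j) (v' j)) = 0 := by
      rw [hDB.apply _ _ hp𝒪 (downB_diaOp hΨ hq hqN hΨ') c 0 (by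
        rw [hzero, funext hc]; exact funext fun i => congrFun hu (Sum.inr i))]
      simp
    have h3 := hkill _ (by simp only [algAct_apply, map_sum, map_smul, heρ', hv'.1]) h1 h2
    choose c' hc' using fun i => (toDiaQuot_bijective (lv := lv) hp𝒪).2 (Mx.mulVec u i)
    rw [hMx.apply _ _ hp𝒪 hF c c'
      (by rw [funext hc, funext hc'])] at h3
    have h4 := hv'.coord_unique heρ' (x := c') (y := 0) (by rw [h3]; simp)
    funext i
    rw [← hc' i, h4]
    exact map_zero _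

end Coordinates

section Eigen

variable [CharZero O] {N : ℕ} [NeZero N] {Ψ : (ZMod N)ˣ →* DiaGroup p lv}
  (hΨ : Function.Surjective Ψ)
  (hneg : (-1 : SL(2, ℤ)) ∈ GammaPsi Ψ) (S : Finset ℕ) (a : Nat.Primes → ResidueField O)
  {q : ℕ} [NeZero q] (hq : q.Prime) (hqN : ¬ q ∣ N)
  {qs : Fin r → ℕ} (K : Type) [Field K] [CharZero K] [IsAlgClosed K] [Algebra O K]
  (hinj : Function.Injective (algebraMap O K))

/-- Vanishing on the common eigenvectors of a stable subspace is vanishing on the subspace. -/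
theorem eq_zero_on_of_eigen {M : ℕ} [NeZero M] {hM : ∀ i, qs i ∣ M}
    {π : ∀ i, (ZMod (qs i))ˣ →* Multiplicative (ZMod (p ^ lv i))}
    {Φ : (ZMod M)ˣ →* DiaGroup p lv} (h : IsTWLevel hM π Φ) (hΦ : Function.Surjective Φ)
    (hn : (-1 : SL(2, ℤ)) ∈ GammaPsi Φ) (W : Submodule K (clHoms K (GammaPsi Φ) K))
    (hW : ∀ i, ∀ w ∈ W, goodOps hΦ hn i w ∈ W) (X : Module.End K (clHoms K (GammaPsi Φ) K))
    (hX : ∀ φ ∈ W, φ ≠ 0 → (∀ i, ∃ c : K, goodOps hΦ hn i φ = c • φ) → X φ = 0)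
    {w : clHoms K (GammaPsi Φ) K} (hw : w ∈ W) : X w = 0 := by
  have hz : Set.EqOn X (0 : Module.End K (clHoms K (GammaPsi Φ) K))
      {v | v ∈ W ∧ ∀ i, ∃ c : K, goodOps hΦ hn i v = c • v} := fun φ hφ => by
    rcases eq_or_ne φ 0 with rfl | h0
    · simp
    · exact hX φ hφ.1 h0 hφ.2
  exact LinearMap.eqOn_span (R := K) hz (h.le_span_eigen hΦ hn W hW hw)

omit [IsDomain O] [IsDiscreteValuationRing O] [IsAdicComplete (maximalIdeal O) O]
    [Finite (ResidueField O)] [CharZero O] [CharZero K]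
    [IsAlgClosed K] in
/-- `corA` commutes with extension of scalars. -/
theorem psiCast_psiCorA (χ : clHoms O (GammaPsi (liftPsi Ψ q)) O) :
    psiCast Ψ O K (psiCorA Ψ q O χ) = psiCorA Ψ q K (psiCast (liftPsi Ψ q) O K χ) :=
  Subtype.ext (coresHom_comp _ (algebraMap O K).toAddMonoidHom _).symm

omit [IsDomain O] [IsDiscreteValuationRing O] [IsAdicComplete (maximalIdeal O) O]
    [Finite (ResidueField O)] [CharZero O] [CharZero K]
    [IsAlgClosed K] in
/-- `corB` commutes with extension of scalars. -/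
theorem psiCast_psiCorB (χ : clHoms O (GammaPsi (liftPsi Ψ q)) O) :
    psiCast Ψ O K (psiCorB Ψ q O χ) = psiCorB Ψ q K (psiCast (liftPsi Ψ q) O K χ) :=
  Subtype.ext (coresHom_comp _ (algebraMap O K).toAddMonoidHom _).symm

omit [Finite (ResidueField O)] in
include hinj hq hneg in
/-- An element of the algebra away from `S'` killing the new common eigenvectors of the part at the
system away from `S` kills the common kernel of the transfers in that part. -/
theorem kills_of_eigen_on (hΨ' : Function.Surjective (liftPsi Ψ q))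
    (hneg' : (-1 : SL(2, ℤ)) ∈ GammaPsi (liftPsi Ψ q)) {hN : ∀ i, qs i ∣ N * q}
    {π : ∀ i, (ZMod (qs i))ˣ →* Multiplicative (ZMod (p ^ lv i))}
    (h : IsTWLevel hN π (liftPsi Ψ q))
    (S' : Finset ℕ) (x : levelAlg O (liftPsi Ψ q) hΨ' hneg' (goodSet S'))
    (hx : ∀ φ ∈ idemSpan O (liftPsi Ψ q) hΨ' hneg' S a K, φ ≠ 0 →
      (∀ i, ∃ c : K, goodOps hΨ' hneg' i φ = c • φ) →
      psiCorA Ψ q K φ = 0 → psiCorB Ψ q K φ = 0 →
      HasExtEigen (psiCast (liftPsi Ψ q) O K).toAddMonoidHom φ x.1.1 (0 : K))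
    (z : clHoms O (GammaPsi (liftPsi Ψ q)) O)
    (hz : partIdem (liftPsi Ψ q) hΨ' hneg' (goodSet S) a z = z)
    (hA : downA O q Ψ z = 0) (hB : downB O hΨ hq hqN z = 0) : x.1.1 z = 0 := by
  have hB' : psiCorB Ψ q O z = 0 := by
    have h0 := congrArg (diaOp O Ψ hΨ (halfQ hq hqN Ψ)⁻¹) hB
    rw [map_zero] at h0
    rw [← h0]
    show _ = diaOp O Ψ hΨ _ (diaOp O Ψ hΨ _ (psiCorB Ψ q O z))
    rw [diaOp_mul_apply, inv_mul_cancel, diaOp_one_apply]
  set W := idemSpan O (liftPsi Ψ q) hΨ' hneg' S a K ⊓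
    (LinearMap.ker (psiCorA Ψ q K) ⊓ LinearMap.ker (psiCorB Ψ q K)) with hWdef
  have hW : ∀ i, ∀ w ∈ W, goodOps hΨ' hneg' i w ∈ W := fun i w hw => by
    obtain ⟨h1, h2, h3⟩ := hw
    refine ⟨idemSpan_stable (liftPsi Ψ q) hΨ' hneg' S a K i w h1, ?_⟩
    show goodOps hΨ' hneg' i w ∈ LinearMap.ker (psiCorA Ψ q K) ⊓ LinearMap.ker (psiCorB Ψ q K)
    rw [Submodule.mem_inf, LinearMap.mem_ker, LinearMap.mem_ker]
    replace h2 : psiCorA Ψ q K w = 0 := h2
    replace h3 : psiCorB Ψ q K w = 0 := h3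
    rcases i with ℓ | δ
    · have : NeZero (ℓ.1 : ℕ) := ⟨ℓ.1.2.ne_zero⟩
      have hℓq : (ℓ.1 : ℕ) ≠ q := fun e => ℓ.2 (by rw [e]; exact dvd_mul_left q N)
      exact ⟨(psiCorA_kerOp K hΨ hneg hΨ' hneg' hq ℓ.1.2 hℓq w).trans
          (by rw [h2, map_zero]),
        (psiCorB_kerOp K hΨ hneg hΨ' hneg' hq ℓ.1.2 hℓq w).trans
          (by rw [h3, map_zero])⟩
    · exact ⟨(psiCorA_diaOp K hΨ hΨ' δ w).trans (by rw [h2, map_zero]),
        (psiCorB_diaOp K hΨ hΨ' δ w).trans (by rw [h3, map_zero])⟩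
  obtain ⟨X, hX⟩ := exists_ext (liftPsi Ψ q) hΨ' hneg' S' K x
  refine psiCast_injective (liftPsi Ψ q) O K hinj ?_
  rw [hX, map_zero]
  refine eq_zero_on_of_eigen K h hΨ' hneg' W hW X (fun φ hφ hφ0 heig => ?_) ?_
  · obtain ⟨Y, hY, hYφ⟩ := hx φ hφ.1 hφ0 heig (LinearMap.mem_ker.mp hφ.2.1)
      (LinearMap.mem_ker.mp hφ.2.2)
    have e : X φ = Y φ := LinearMap.eqOn_span (R := K)
      (by rintro _ ⟨u, rfl⟩; exact (hX u).symm.trans (hY u))
      (Submodule.span_mono (Set.image_subset_range _ _) hφ.1)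
    rw [e, hYφ, zero_smul]
  · refine ⟨Submodule.subset_span ⟨z, hz, rfl⟩, ?_, ?_⟩
    · rw [SetLike.mem_coe, LinearMap.mem_ker, ← psiCast_psiCorA, show psiCorA Ψ q O z = 0 from hA,
        map_zero]
    · rw [SetLike.mem_coe, LinearMap.mem_ker, ← psiCast_psiCorB, hB', map_zero]

omit [Finite (ResidueField O)] in
include hinj in
/-- No common eigenvector with eigenvalue `c` means no fixed vector with eigenvalue `c`. -/
theorem tEnd_ne_of_eigen {hN : ∀ i, qs i ∣ N}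
    {π : ∀ i, (ZMod (qs i))ˣ →* Multiplicative (ZMod (p ^ lv i))}
    (h : IsTWLevel hN π Ψ) (c : O)
    (hne : ∀ φ ∈ idemSpan O Ψ hΨ hneg S a K, φ ≠ 0 →
      (∀ i, ∃ c : K, goodOps hΨ hneg i φ = c • φ) →
      kerOp K Ψ hΨ hneg q (diaOp K Ψ hΨ (halfQ hq hqN Ψ) φ) ≠ algebraMap O K c • φ)
    (w : clHoms O (GammaPsi Ψ) O) (hw : partIdem Ψ hΨ hneg (goodSet S) a w = w)
    (hc : tEnd O hΨ hneg hq hqN w = c • w) : w = 0 := by
  set δ := halfQ hq hqN Ψ with hδ
  let qi : {ℓ : Nat.Primes // ¬ (ℓ : ℕ) ∣ N} := ⟨⟨q, hq⟩, hqN⟩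
  let T : Module.End K (clHoms K (GammaPsi Ψ) K) :=
    goodOps hΨ hneg (.inl qi) * goodOps hΨ hneg (.inr δ)
  have hT : ∀ φ, T φ = kerOp K Ψ hΨ hneg q (diaOp K Ψ hΨ δ φ) := fun φ => rfl
  set W := idemSpan O Ψ hΨ hneg S a K ⊓
    LinearMap.eqLocus T (algebraMap O K c • (1 : Module.End K (clHoms K (GammaPsi Ψ) K))) with hWdef
  have hW : ∀ i, ∀ φ ∈ W, goodOps hΨ hneg i φ ∈ W := fun i φ hφ => by
    refine ⟨idemSpan_stable Ψ hΨ hneg S a K i φ hφ.1, ?_⟩
    have h2 : T φ = algebraMap O K c • φ := hφ.2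
    show T (goodOps hΨ hneg i φ) = algebraMap O K c • goodOps hΨ hneg i φ
    rw [← map_smul, ← h2]
    exact (congrArg (goodOps hΨ hneg (.inl qi))
      (LinearMap.congr_fun (goodOps_comm hΨ hneg i (.inr δ)).eq φ).symm).trans
      (LinearMap.congr_fun (goodOps_comm hΨ hneg i (.inl qi)).eq _).symm
  refine psiCast_injective Ψ O K hinj ?_
  rw [map_zero]
  refine eq_zero_on_of_eigen K h hΨ hneg W hW 1 (fun φ hφ hφ0 heig => ?_) ?_
  · exact absurd ((hT φ).symm.trans hφ.2) (hne φ hφ.1 hφ0 heig)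
  · refine ⟨Submodule.subset_span ⟨w, hw, rfl⟩, ?_⟩
    show kerOp K Ψ hΨ hneg q (diaOp K Ψ hΨ δ (psiCast Ψ O K w)) =
      algebraMap O K c • psiCast Ψ O K w
    rw [← psiCast_diaOp, ← psiCast_kerOp,
      show kerOp O Ψ hΨ hneg q (diaOp O Ψ hΨ δ w) = c • w from hc]
    exact psiCast_smul O Ψ K c w

end Eigen

end Fermat.Agent.Raising.Degen
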